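/-
MLT / Fr3 (helper9): fork of `Lib/Ihara/Fr/Cyc.lean` for `p = 3` (generated by a rename
script from the frozen file: only the declarations depending on `IhfLevel` / `IsUnit 3` are repeated, with
the prefix `ih`/`Ih` replaced by `jh`/`Jh`; the level hypothesis is `JhfLevel`, see `Fr3/Fr/Three.lean`).
-/
import Mathlib
import Fermat.Agent.Lib.Ihara.Fr.Step
import Fermat.Agent.Lib.Ihara.Fr.Cor
import Fermat.Agent.Lib.Ihara.Fr.Defs
import Fermat.Agent.Lib.MLT.Fr3.Fr.Defs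
import Fermat.Agent.Lib.Ihara.Fr.Cyc

set_option autoImplicit false
set_option linter.unusedSectionVars false
set_option linter.unusedVariables false
set_option linter.style.haveILetI false

namespace Fermat.Agent.Ihara

open Matrix MatrixGroups CongruenceSubgroup ModularCurve ModularCurve.Period
open Fermat.Agent.DS Fermat.Agent.T1 Fermat.Agent.T1G Fermat.Agent.T2

/-! ### Independence of the transversal -/

namespace IhfTrans

variable {Γ Γ' : Subgroup SL(2, ℤ)} {I I' : Type} [Fintype I] [Fintype I'] (hle : Γ ≤ Γ')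
  (τ : IhfTrans Γ Γ' I) (τ' : IhfTrans Γ Γ' I')

end IhfTrans

/-! ### The cyclic transversal -/

section Cyc

variable {M : ℕ} [NeZero M] {K K' : Subgroup (ZMod M)ˣ} {d : (ZMod M)ˣ} {q : ℕ}
  (hc : IhfCyc M K K' d q)

end Cyc

/-! ### Existence of cyclic steps -/

section Exists

variable {p M : ℕ} [NeZero M] {H K : Subgroup (ZMod M)ˣ}

theorem jhf_exists_cyc (hL : JhfLevel p M H) (hHK : H ≤ K) {T₀ : Subgroup (ZMod M)ˣ}
    (hKT : K ≤ T₀) (hK : K ≠ T₀) :
    ∃ (K' : Subgroup (ZMod M)ˣ) (d : (ZMod M)ˣ), IhfCyc M K K' d p ∧ K' ≤ T₀ := by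
  classical
  have hp := hL.prime
  obtain ⟨d₀, hd₀T, hd₀⟩ : ∃ d₀ : (ZMod M)ˣ, d₀ ∈ T₀ ∧ d₀ ∉ K := by
    by_contra hcon
    push Not at hcon
    exact hK (le_antisymm hKT fun x hx => hcon x hx)
  have hex : ∃ n : ℕ, d₀ ^ p ^ n ∈ K := by
    obtain ⟨n, hn⟩ := hL.pgroup d₀
    exact ⟨n, hHK hn⟩
  set n := Nat.find hex with hn
  have hn1 : d₀ ^ p ^ n ∈ K := Nat.find_spec hex
  have hn0 : n ≠ 0 := by
    intro h0
    rw [h0, pow_zero, pow_one] at hn1
    exact hd₀ hn1
  obtain ⟨m, hm⟩ := Nat.exists_eq_succ_of_ne_zero hn0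
  set d := d₀ ^ p ^ m with hd
  have hdT : d ∈ T₀ := pow_mem hd₀T _
  have hdK : d ∉ K := by
    intro h
    have := Nat.find_min hex (m := m) (by omega)
    exact this h
  have hdp : d ^ p ∈ K := by
    rw [hd, ← pow_mul, ← pow_succ, ← Nat.succ_eq_add_one, ← hm]
    exact hn1
  refine ⟨K ⊔ Subgroup.zpowers d, d, ⟨le_sup_left,
    (le_sup_right : Subgroup.zpowers d ≤ K ⊔ Subgroup.zpowers d) (Subgroup.mem_zpowers d), ?_,
    hdp, ?_⟩, sup_le hKT ((Subgroup.zpowers_le).mpr hdT)⟩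
  · intro u hu
    obtain ⟨y, hy, z, hz, rfl⟩ := Subgroup.mem_sup.mp hu
    obtain ⟨n', rfl⟩ := Subgroup.mem_zpowers_iff.mp hz
    exact ⟨n', by rwa [mul_inv_cancel_right]⟩
  · intro n' hn'
    by_contra hndvd
    have hcop : IsCoprime n' (p : ℤ) := by
      rw [isCoprime_comm, (Nat.prime_iff_prime_int.mp hp).irreducible.coprime_iff_not_dvd]
      exact hndvd
    obtain ⟨a, b, hab⟩ := hcop
    apply hdK
    have : d = (d ^ n') ^ a * (d ^ p) ^ b := by
      rw [← zpow_natCast d p, ← _root_.zpow_mul, ← _root_.zpow_mul, ← _root_.zpow_add, mul_comm n' a,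
        mul_comm (p : ℤ) b, hab, zpow_one]
    rw [this]
    exact mul_mem (zpow_mem hn' a) (zpow_mem hdp b)

end Exists

end Fermat.Agent.Ihara
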