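/-
MLT / Fr3 (helper9): fork of `Lib/Ihara/Fr/Defs.lean` for `p = 3` (generated by a rename
script from the frozen file: only the declarations depending on `IhfLevel` / `IsUnit 3` are repeated, with
the prefix `ih`/`Ih` replaced by `jh`/`Jh`; the level hypothesis is `JhfLevel`, see `Fr3/Fr/Three.lean`).
-/
import Mathlib
import Fermat.Agent.Lib.Ihara.Fr.GammaH
import Fermat.Agent.Lib.Ihara.Fr.Cor
import Fermat.Agent.Lib.Ihara.Fr.Defs
import Fermat.Agent.Lib.MLT.Fr3.Fr.Three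

set_option autoImplicit false
set_option linter.unusedSectionVars false
set_option linter.unusedVariables false

namespace Fermat.Agent.Ihara

open Matrix MatrixGroups CongruenceSubgroup ModularCurve ModularCurve.Period
open Fermat.Agent.DS Fermat.Agent.T1 Fermat.Agent.T1G Fermat.Agent.T2

/-- the hypotheses on `(M, H, p)` -/
structure JhfLevel (p M : ℕ) (H : Subgroup (ZMod M)ˣ) : Prop where
  prime : p.Prime
  odd : p ≠ 2
  three : 5 ≤ p ∨ ∃ r : ℕ, r.Prime ∧ r ∣ M ∧ r % 3 = 2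
  neg_mem : (-1 : (ZMod M)ˣ) ∈ H
  pgroup : ∀ d : (ZMod M)ˣ, ∃ n : ℕ, d ^ p ^ n ∈ H
  par : ∀ γ : SL(2, ℤ), γ ∈ Gamma0 M → (γ : Matrix (Fin 2) (Fin 2) ℤ).trace ^ 2 = 4 →
    γ ∈ ihfGammaH M H

end Fermat.Agent.Ihara
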