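/-
MLT / Fr3 (helper9), part 1: **lifting parabolic homomorphisms when `3` is NOT invertible** (`p = 3`).

The lemma `ihf_lift_par` of `Lib/Ihara/Fr/Lift.lean` lifts parabolic homomorphisms `Γ → k` to `Γ → 𝒪` when
`2` and `3` are units of `𝒪`.  The unit `3` is only used to lift the `R`-cocycle by averaging over the
`R`-orbits.  Here `IsUnit 3` is replaced by

  `JhfChi D 𝒪 : ∃ χ : ι → 𝒪, ∀ x, χ x + χ (sR x) + χ (sR (sR x)) = 1`,

which holds if `3` is a unit (`χ = 1/3`) AND if `R` acts without fixed point on the cosets `Γ \ SL₂(ℤ)`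
(`χ` = the indicator function of a set of representatives of the `R`-orbits), i.e. if `Γ` has no element of
trace `1` (`JhfThreeG`), which is the case for every `Γ ≤ Γ₀(M)` as soon as a prime `r ≡ 2 mod 3` divides `M`
(`JhfThree`, `jhf_threeG_of_three`).

* `jhf_lift_par` : every parabolic `Γ → k` lifts to a parabolic `Γ → 𝒪` (under `IsUnit 2` and `JhfChi D 𝒪`).
-/
import Mathlib
import Fermat.Agent.Lib.Ihara.Fr.Lift
import Fermat.Agent.Lib.Ihara.Fr.GammaH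

set_option autoImplicit false
set_option linter.unusedSectionVars false
set_option linter.unusedVariables false

namespace Fermat.Agent.Ihara

open Matrix MatrixGroups ModularGroup ModularCurve.Period Function Fermat.Agent.T1 Fermat.Agent.LR
open CongruenceSubgroup

section Chi

variable {Γ : Subgroup SL(2, ℤ)} {ι : Type} [Fintype ι] (D : LrdSys Γ ι)

/-- the hypothesis replacing `IsUnit 3`: a function `χ` with `χ + χ ∘ R + χ ∘ R² = 1` -/
def JhfChi (𝒪 : Type*) [CommRing 𝒪] : Prop :=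
  ∃ χ : ι → 𝒪, ∀ x, χ x + χ (D.sR x) + χ (D.sR (D.sR x)) = 1

theorem jhf_chi_of_isUnit {𝒪 : Type*} [CommRing 𝒪] (h3 : IsUnit (3 : 𝒪)) : JhfChi D 𝒪 := by
  obtain ⟨i3, hi3⟩ := h3.exists_right_inv
  refine ⟨fun _ => i3, fun x => ?_⟩
  linear_combination hi3

open Classical in
/-- if `R` has no fixed point, the indicator function of the minima of the orbits -/
theorem jhf_chi_of_free {𝒪 : Type*} [CommRing 𝒪] (h : ∀ x, D.sR x ≠ x) : JhfChi D 𝒪 := by
  let _ : LinearOrder ι := LinearOrder.lift' (Fintype.equivFin ι) (Fintype.equivFin ι).injective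
  refine ⟨fun x => if x < D.sR x ∧ x < D.sR (D.sR x) then 1 else 0, fun x => ?_⟩
  have h1 : D.sR x ≠ x := h x
  have h2 : D.sR (D.sR x) ≠ D.sR x := h _
  have h3 : D.sR (D.sR x) ≠ x := by
    intro e
    have := D.sR_sR_sR x
    rw [e] at this
    exact h1 this
  simp only [D.sR_sR_sR]
  set a := x with ha
  set b := D.sR x with hb
  set c := D.sR b with hc
  rcases lt_trichotomy a b with hab | hab | hab
  · rcases lt_trichotomy a c with hac | hac | hac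
    · have n1 : ¬ (b < c ∧ b < a) := fun hh => absurd hh.2 (not_lt.mpr hab.le)
      have n2 : ¬ (c < a ∧ c < b) := fun hh => absurd hh.1 (not_lt.mpr hac.le)
      rw [if_pos ⟨hab, hac⟩, if_neg n1, if_neg n2]
      ring
    · exact absurd hac.symm h3
    · have n0 : ¬ (a < b ∧ a < c) := fun hh => absurd hh.2 (not_lt.mpr hac.le)
      have n1 : ¬ (b < c ∧ b < a) := fun hh => absurd hh.2 (not_lt.mpr hab.le)
      rw [if_neg n0, if_neg n1, if_pos ⟨hac, hac.trans hab⟩]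
      ring
  · exact absurd hab.symm h1
  · rcases lt_trichotomy b c with hbc | hbc | hbc
    · have n0 : ¬ (a < b ∧ a < c) := fun hh => absurd hh.1 (not_lt.mpr hab.le)
      have n2 : ¬ (c < a ∧ c < b) := fun hh => absurd hh.2 (not_lt.mpr hbc.le)
      rw [if_neg n0, if_pos ⟨hbc, hab⟩, if_neg n2]
      ring
    · exact absurd hbc.symm h2
    · have n0 : ¬ (a < b ∧ a < c) := fun hh => absurd hh.1 (not_lt.mpr hab.le)
      have n1 : ¬ (b < c ∧ b < a) := fun hh => absurd hh.1 (not_lt.mpr hbc.le)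
      rw [if_neg n0, if_neg n1, if_pos ⟨hbc.trans hab, hbc⟩]
      ring

/-- `3` is a unit of `𝒪`, or `Γ` has no element of trace `1` (no elliptic element of order `3`) -/
def JhfThreeG (𝒪 : Type*) [CommRing 𝒪] (Γ : Subgroup SL(2, ℤ)) : Prop :=
  IsUnit (3 : 𝒪) ∨ ∀ γ : SL(2, ℤ), γ ∈ Γ → (γ : Matrix (Fin 2) (Fin 2) ℤ).trace ≠ 1

theorem jhf_threeG_mono {𝒪 : Type*} [CommRing 𝒪] {Γ Γ' : Subgroup SL(2, ℤ)} (hle : Γ ≤ Γ')
    (h : JhfThreeG 𝒪 Γ') : JhfThreeG 𝒪 Γ := by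
  rcases h with h | h
  · exact Or.inl h
  · exact Or.inr fun γ hγ => h γ (hle hγ)

theorem jhf_chi_of_threeG {𝒪 : Type*} [CommRing 𝒪] (h : JhfThreeG 𝒪 Γ) : JhfChi D 𝒪 := by
  rcases h with h | h
  · exact jhf_chi_of_isUnit D h
  · refine jhf_chi_of_free D fun x hx => ?_
    have h1 : ((D.eps lrdR x : Γ) : SL(2, ℤ)) = D.rep x * lrdR * (D.rep x)⁻¹ := by
      rw [D.coe_eps]
      rw [D.sR_apply] at hx
      rw [hx]
    have h2 := h _ (D.eps lrdR x).2
    apply h2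
    rw [h1]
    rw [Matrix.SpecialLinearGroup.coe_mul, Matrix.trace_mul_comm,
      Matrix.SpecialLinearGroup.coe_mul, ← Matrix.mul_assoc, ← Matrix.SpecialLinearGroup.coe_mul,
      inv_mul_cancel, Matrix.SpecialLinearGroup.coe_one, Matrix.one_mul]
    decide

end Chi

section Level

/-- `3` is a unit of `𝒪`, or a prime `r ≡ 2 mod 3` divides the level `M` -/
def JhfThree (𝒪 : Type*) [CommRing 𝒪] (M : ℕ) : Prop :=
  IsUnit (3 : 𝒪) ∨ ∃ r : ℕ, r.Prime ∧ r ∣ M ∧ r % 3 = 2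

theorem jhf_three_of_dvd {𝒪 : Type*} [CommRing 𝒪] {M M' : ℕ} (hMM' : M ∣ M')
    (h : JhfThree 𝒪 M) : JhfThree 𝒪 M' := by
  rcases h with h | ⟨r, hr, hrM, hr3⟩
  · exact Or.inl h
  · exact Or.inr ⟨r, hr, hrM.trans hMM', hr3⟩

/-- no root of `X² - X + 1` modulo a prime `r ≡ 2 mod 3` -/
theorem jhf_no_root {r : ℕ} (hr : r.Prime) (hr3 : r % 3 = 2) (a : ZMod r) :
    a ^ 2 - a + 1 ≠ 0 := by
  have : Fact r.Prime := ⟨hr⟩
  intro h
  have h3 : (-a) ^ 3 = 1 := by linear_combination (-(a + 1)) * h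
  have ha0 : -a ≠ 0 := by
    intro h0
    rw [h0] at h3
    simp at h3
  have hne1 : -a ≠ 1 := by
    intro h1
    have h4 : a = -1 := by linear_combination -h1
    rw [h4] at h
    have h5 : (3 : ZMod r) = 0 := by linear_combination h
    have h6 : ((3 : ℕ) : ZMod r) = 0 := by exact_mod_cast h5
    rw [ZMod.natCast_eq_zero_iff] at h6
    have h7 := Nat.le_of_dvd (by norm_num) h6
    have h8 := hr.two_le
    interval_cases r <;> omega
  set u : (ZMod r)ˣ := Units.mk0 (-a) ha0 with hu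
  have hu3 : u ^ 3 = 1 := by
    apply Units.ext
    rw [Units.val_pow_eq_pow_val, Units.val_mk0, h3, Units.val_one]
  have hu1 : u ≠ 1 := by
    intro h1
    apply hne1
    have := congrArg Units.val h1
    rwa [Units.val_mk0, Units.val_one] at this
  have hord : orderOf u = 3 := by
    have h3p : Nat.Prime 3 := by norm_num
    exact orderOf_eq_prime hu3 hu1
  have hdvd : 3 ∣ r - 1 := by
    have h1 := orderOf_dvd_card (G := (ZMod r)ˣ) (x := u)
    rw [hord, ZMod.card_units_eq_totient, Nat.totient_prime hr] at h1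
    exact h1
  have := hr.two_le
  omega

theorem jhf_trace_ne_one {M r : ℕ} (hr : r.Prime) (hrM : r ∣ M) (hr3 : r % 3 = 2)
    (γ : SL(2, ℤ)) (hγ : γ ∈ Gamma0 M) : (γ : Matrix (Fin 2) (Fin 2) ℤ).trace ≠ 1 := by
  intro htr
  rw [Gamma0_mem] at hγ
  have hc : ((γ 1 0 : ℤ) : ZMod r) = 0 := by
    have h1 : (M : ℤ) ∣ γ 1 0 := (ZMod.intCast_zmod_eq_zero_iff_dvd _ _).mp hγ
    have h2 : (r : ℤ) ∣ γ 1 0 := (Int.natCast_dvd_natCast.mpr hrM).trans h1
    exact (ZMod.intCast_zmod_eq_zero_iff_dvd _ _).mpr h2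
  have hdet := γ.det_coe
  rw [Matrix.det_fin_two] at hdet
  rw [Matrix.trace_fin_two] at htr
  have hd : γ 1 1 = 1 - γ 0 0 := by linarith
  have hdet' : ((γ 0 0 : ℤ) : ZMod r) * ((γ 1 1 : ℤ) : ZMod r)
      - ((γ 0 1 : ℤ) : ZMod r) * ((γ 1 0 : ℤ) : ZMod r) = 1 := by
    have := congrArg (Int.cast : ℤ → ZMod r) hdet
    push_cast at this
    exact this
  rw [hc, mul_zero, sub_zero, hd] at hdet'
  push_cast at hdet'
  apply jhf_no_root hr hr3 ((γ 0 0 : ℤ) : ZMod r)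
  linear_combination -hdet'

theorem jhf_threeG_of_three {𝒪 : Type*} [CommRing 𝒪] {M : ℕ} (K : Subgroup (ZMod M)ˣ)
    (h : JhfThree 𝒪 M) : JhfThreeG 𝒪 (ihfGammaH M K) := by
  rcases h with h | ⟨r, hr, hrM, hr3⟩
  · exact Or.inl h
  · exact Or.inr fun γ hγ => jhf_trace_ne_one hr hrM hr3 γ (ihfGammaH_le_Gamma0 hγ)

/-- the hypothesis replacing `5 ≤ p` at the level `M`: `p` odd, and `5 ≤ p` or a prime `r ≡ 2 mod 3`
divides `M` -/
def Jh5 (p M : ℕ) : Prop := p ≠ 2 ∧ (5 ≤ p ∨ ∃ r : ℕ, r.Prime ∧ r ∣ M ∧ r % 3 = 2)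

theorem jh5_of_five_le {p : ℕ} (M : ℕ) (hp5 : 5 ≤ p) : Jh5 p M := ⟨by omega, Or.inl hp5⟩

theorem jh5_of_dvd {p M M' : ℕ} (hMM' : M ∣ M') (h : Jh5 p M) : Jh5 p M' := by
  refine ⟨h.1, ?_⟩
  rcases h.2 with h5 | ⟨r, hr, hrM, hr3⟩
  · exact Or.inl h5
  · exact Or.inr ⟨r, hr, hrM.trans hMM', hr3⟩

theorem jh5_of_prime_dvd {p M r : ℕ} (hp2 : p ≠ 2) (hr : r.Prime) (hrM : r ∣ M) (hr3 : r % 3 = 2) :
    Jh5 p M := ⟨hp2, Or.inr ⟨r, hr, hrM, hr3⟩⟩

end Level

/-! ### Lifting -/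

section Lift

variable {Γ : Subgroup SL(2, ℤ)} {ι : Type} [Fintype ι] (D : LrdSys Γ ι)
  {𝒪 k : Type*} [CommRing 𝒪] [CommRing k] (π : 𝒪 →+* k) (hπ : Function.Surjective π)
  (h2 : IsUnit (2 : 𝒪)) (h3 : JhfChi D 𝒪)

include D hπ h2 h3 in
/-- **every parabolic homomorphism `Γ → k` lifts to a parabolic homomorphism `Γ → 𝒪`**
(`2` invertible, `χ + χ ∘ R + χ ∘ R² = 1`) -/
theorem jhf_lift_par (φ' : Additive Γ →+ k) (hφ' : IsParabolicHom Γ φ') :
    ∃ φ : Additive Γ →+ 𝒪, IsParabolicHom Γ φ ∧ (π : 𝒪 →+ k).comp φ = φ' := by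
  classical
  obtain ⟨i2, hi2⟩ := h2.exists_right_inv
  obtain ⟨χ, hχ⟩ := h3
  have h2' : π i2 * 2 = 1 := by
    rw [← map_ofNat π 2, ← map_mul, mul_comm, hi2, map_one]
  have h2k : ∀ a : k, a + a = 0 → a = 0 := by
    intro a ha
    linear_combination (-a) * h2' + π i2 * ha
  have h2O : ∀ a : 𝒪, a + a = 0 → a = 0 := by
    intro a ha
    linear_combination (-a) * hi2 + i2 * ha
  obtain ⟨u, hu⟩ := ihf_cocT_of_parabolic D hφ'
  set a : ι → k := fun x => D.coc φ' S x with hadef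
  set b : ι → k := fun x => D.coc φ' lrdR x with hbdef
  have ha : ∀ x, a x + a (D.sS x) = 0 := D.coc_S_add h2k φ'
  have hb : ∀ x, b x + b (D.sR x) + b (D.sR (D.sR x)) = 0 := D.coc_R_add h2k φ'
  choose a₀ ha₀ using fun x => hπ (a x)
  choose b₀ hb₀ using fun x => hπ (b x)
  choose u₀ hu₀ using fun x => hπ (u x)
  set a₁ : ι → 𝒪 := fun x => i2 * (a₀ x - a₀ (D.sS x)) with ha₁def
  set b₁ : ι → 𝒪 := fun x => b₀ x - χ x * (b₀ x + b₀ (D.sR x) + b₀ (D.sR (D.sR x))) with hb₁def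
  have ha₁ : ∀ x, a₁ x + a₁ (D.sS x) = 0 := by
    intro x
    simp only [ha₁def, D.sS_sS]
    ring
  have hb₁ : ∀ x, b₁ x + b₁ (D.sR x) + b₁ (D.sR (D.sR x)) = 0 := by
    intro x
    simp only [hb₁def, D.sR_sR_sR]
    linear_combination (-(b₀ x + b₀ (D.sR x) + b₀ (D.sR (D.sR x)))) * hχ x
  have hπa₁ : ∀ x, π (a₁ x) = a x := by
    intro x
    simp only [ha₁def, map_mul, map_sub, ha₀]
    linear_combination (a x) * h2' - π i2 * ha x
  have hπb₁ : ∀ x, π (b₁ x) = b x := by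
    intro x
    simp only [hb₁def, map_mul, map_sub, map_add, hb₀]
    linear_combination (- π (χ x)) * hb x
  -- the defect
  set c : ι → 𝒪 := fun y => (b₁ (D.sS y) - a₁ (D.sS y)) - (u₀ y - u₀ (D.sT y)) with hcdef
  have hπc : ∀ y, c y ∈ (π : 𝒪 →+ k).ker := by
    intro y
    rw [AddMonoidHom.mem_ker]
    show π (c y) = 0
    simp only [hcdef, map_sub, hπa₁, hπb₁, hu₀]
    have h1 := D.coc_T φ' y
    have h2 := hu y
    rw [h1] at h2
    linear_combination h2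
  have hsa : ∑ x, a₁ x = 0 := by
    apply h2O
    rw [← Finset.sum_add_distrib]
    have : ∑ x, a₁ (D.sS x) = ∑ x, a₁ x := Equiv.sum_comp D.sS a₁
    have h := Finset.sum_congr rfl fun x (_ : x ∈ Finset.univ) => ha₁ x
    rw [Finset.sum_add_distrib, this, Finset.sum_const_zero] at h
    rw [Finset.sum_add_distrib]
    exact h
  have hsb : ∑ x, b₁ x = 0 := by
    -- `Σ b₁ = Σ_x (χ x + χ (R x) + χ (R² x)) b₁ x = Σ_y χ y (b₁ y + b₁ (R² y) + b₁ (R y)) = 0`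
    have e0 : ∑ x, b₁ x = ∑ x, (χ x * b₁ x + χ (D.sR x) * b₁ x + χ (D.sR (D.sR x)) * b₁ x) := by
      refine Finset.sum_congr rfl fun x _ => ?_
      linear_combination (-(b₁ x)) * hχ x
    have e1 : ∑ x, χ (D.sR x) * b₁ x = ∑ y, χ y * b₁ (D.sR (D.sR y)) := by
      rw [← Equiv.sum_comp D.sR (fun y => χ y * b₁ (D.sR (D.sR y)))]
      refine Finset.sum_congr rfl fun x _ => ?_
      rw [D.sR_sR_sR]
    have e2 : ∑ x, χ (D.sR (D.sR x)) * b₁ x = ∑ y, χ y * b₁ (D.sR y) := by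
      rw [← Equiv.sum_comp (D.sR * D.sR) (fun y => χ y * b₁ (D.sR y))]
      refine Finset.sum_congr rfl fun x _ => ?_
      simp only [Equiv.Perm.mul_apply]
      rw [D.sR_sR_sR]
    rw [e0, Finset.sum_add_distrib, Finset.sum_add_distrib, e1, e2, ← Finset.sum_add_distrib,
      ← Finset.sum_add_distrib]
    refine Finset.sum_eq_zero fun y _ => ?_
    linear_combination (χ y) * hb₁ y
  have hsc : ∑ y, c y = 0 := by
    simp only [hcdef, Finset.sum_sub_distrib]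
    rw [Equiv.sum_comp D.sS b₁, Equiv.sum_comp D.sS a₁, Equiv.sum_comp D.sT u₀, hsa, hsb]
    ring
  set c' : ι → (π : 𝒪 →+ k).ker := fun y => ⟨c y, hπc y⟩ with hc'def
  have hsc' : ∑ y, c' y = 0 := by
    apply Subtype.ext
    rw [AddSubmonoidClass.coe_finsetSum]
    exact hsc
  obtain ⟨v, w, hvw⟩ := ihf_aug_decomp D c' hsc'
  have hvw' : ∀ x, c x = ((v (D.sS x) : 𝒪) - (v x : 𝒪)) + ((w x : 𝒪) - (w (D.sT x) : 𝒪)) := by
    intro x
    have := congrArg (fun z : (π : 𝒪 →+ k).ker => (z : 𝒪)) (hvw x)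
    simpa using this
  set a₂ : ι → 𝒪 := fun x => a₁ x + ((v x : 𝒪) - (v (D.sS x) : 𝒪)) with ha₂def
  have ha₂ : ∀ x, a₂ x + a₂ (D.sS x) = 0 := by
    intro x
    simp only [ha₂def, D.sS_sS]
    linear_combination ha₁ x
  have hπv : ∀ x, π (v x : 𝒪) = 0 := fun x => (v x).2
  have hπa₂ : ∀ x, π (a₂ x) = a x := by
    intro x
    simp only [ha₂def, map_add, map_sub, hπv, hπa₁]
    ring
  obtain ⟨φ, h, hS, hR⟩ := ihf_exists_hom_add D a₂ b₁ ha₂ hb₁
  have hT : ∀ y, D.coc φ T y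
      = ((w y : 𝒪) + u₀ y + h y) - ((w (D.sT y) : 𝒪) + u₀ (D.sT y) + h (D.sT y)) := by
    intro y
    rw [D.coc_T, hR, hS, D.sS_sS, ← D.sT_apply']
    have h1 := hvw' y
    simp only [hcdef] at h1
    simp only [ha₂def, D.sS_sS]
    linear_combination h1
  refine ⟨φ, ihf_parabolic_of_cocT D h2O (u := fun y => (w y : 𝒪) + u₀ y + h y) hT, ?_⟩
  refine lrdq_hom_ext D _ φ' (fun x => π (h x)) (fun x => ?_) (fun x => ?_)
  · show π (D.coc φ S x) = _
    rw [hS, map_sub, map_add, hπa₂]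
    ring
  · show π (D.coc φ lrdR x) = _
    rw [hR, map_sub, map_add, hπb₁]
    ring

end Lift

end Fermat.Agent.Ihara
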