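/-
MLT / Fr3 (helper9): fork of `Lib/Ihara/Fr/Red.lean` for `p = 3` (generated by a rename
script from the frozen file: only the declarations depending on `IhfLevel` / `IsUnit 3` are repeated, with
the prefix `ih`/`Ih` replaced by `jh`/`Jh`; the level hypothesis is `JhfLevel`, see `Fr3/Fr/Three.lean`).
-/
import Mathlib
import Fermat.Agent.Lib.Ihara.Fr.GammaH
import Fermat.Agent.Lib.Ihara.Fr.Lift
import Fermat.Agent.Lib.T1G.ES.Lattice
import Fermat.Agent.Lib.T2.F.Coset2
import Fermat.Agent.Lib.Ihara.Fr.Red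
import Fermat.Agent.Lib.MLT.Fr3.Fr.Three

set_option autoImplicit false
set_option linter.unusedSectionVars false
set_option linter.unusedVariables false

namespace Fermat.Agent.Ihara

open Matrix MatrixGroups CongruenceSubgroup ModularCurve ModularCurve.Period
open Fermat.Agent.DS Fermat.Agent.T1 Fermat.Agent.T1G Fermat.Agent.T2 Fermat.Agent.LR

section Red

variable (Γ : Subgroup SL(2, ℤ)) {𝒪 k : Type*} [CommRing 𝒪] [CommRing k] (π : 𝒪 →+* k)

variable [Γ.FiniteIndex] [IsDomain 𝒪] [CharZero 𝒪]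

/-- **`Hom_par(Γ, k)` is spanned by the reductions of the integral parabolic homomorphisms** -/
theorem jhf_span_top (hneg : (-1 : SL(2, ℤ)) ∈ Γ) (hπ : Function.Surjective π)
    (h2 : IsUnit (2 : 𝒪)) (h3 : JhfThreeG 𝒪 Γ) :
    Submodule.span k (Set.range (tgeCastL Γ k)) = ⊤ := by
  letI : Fintype (SL(2, ℤ) ⧸ Γ) := Subgroup.fintypeQuotientOfFiniteIndex
  rw [eq_top_iff]
  rintro ψ -
  obtain ⟨φ, hφ, e⟩ := jhf_lift_par (lrdSysOf Γ hneg) π hπ h2 (jhf_chi_of_threeG _ h3) ψ.1 ψ.2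
  obtain ⟨x, hx⟩ := tgeBCmap_surjective Γ 𝒪 ⟨φ, hφ⟩
  have key : ∀ x : TensorProduct ℤ 𝒪 ↥(tgeL Γ),
      ihfRed Γ π (tgeBCmap Γ 𝒪 x) ∈ Submodule.span k (Set.range (tgeCastL Γ k)) := by
    intro x
    induction x using TensorProduct.induction_on with
    | zero => rw [map_zero, map_zero]; exact Submodule.zero_mem _
    | tmul a φ₀ =>
      rw [tgeBCmap_tmul, map_smulₛₗ, ihfRed_cast]
      exact Submodule.smul_mem _ _ (Submodule.subset_span ⟨φ₀, rfl⟩)
    | add x y hx hy =>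
      rw [map_add, map_add]
      exact Submodule.add_mem _ hx hy
  have : ψ = ihfRed Γ π (tgeBCmap Γ 𝒪 x) := by
    rw [hx]
    exact Subtype.ext e.symm
  rw [this]
  exact key x

/-- two linear maps on `Hom_par(Γ, k)` which agree on the integral classes are equal -/
theorem jhf_ext_cast (hneg : (-1 : SL(2, ℤ)) ∈ Γ) (hπ : Function.Surjective π)
    (h2 : IsUnit (2 : 𝒪)) (h3 : JhfThreeG 𝒪 Γ) {W : Type*} [AddCommGroup W] [Module k W]
    (f g : ↥(parabolicHoms k Γ k) →ₗ[k] W)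
    (h : ∀ φ₀ : ↥(tgeL Γ), f (tgeCastL Γ k φ₀) = g (tgeCastL Γ k φ₀)) : f = g := by
  apply LinearMap.ext_on_range (jhf_span_top Γ π hneg hπ h2 h3)
  exact h

end Red

/-! ### Naturality in the coefficients -/

section Nat

variable {Γ Γ' : Subgroup SL(2, ℤ)} {ι : Type} [Fintype ι] (k : Type*) [CommRing k]

end Nat

end Fermat.Agent.Ihara
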