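/-
MLT / Fr3 (helper9): fork of `Lib/Ihara/Fr/Ops.lean` for `p = 3` (generated by a rename
script from the frozen file: only the declarations depending on `IhfLevel` / `IsUnit 3` are repeated, with
the prefix `ih`/`Ih` replaced by `jh`/`Jh`; the level hypothesis is `JhfLevel`, see `Fr3/Fr/Three.lean`).
-/
import Mathlib
import Fermat.Agent.Lib.Ihara.Fr.Red
import Fermat.Agent.Lib.MLT.Fr3.Fr.Red
import Fermat.Agent.Lib.Ihara.Fr.Step
import Fermat.Agent.Lib.Ihara.Fr.Cor
import Fermat.Agent.Lib.Ihara.Fr.Ops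
import Fermat.Agent.Lib.MLT.Fr3.Fr.Three

set_option autoImplicit false
set_option linter.unusedSectionVars false
set_option linter.unusedVariables false
set_option linter.style.haveILetI false

namespace Fermat.Agent.Ihara

open Matrix MatrixGroups CongruenceSubgroup ModularCurve ModularCurve.Period
open Fermat.Agent.DS Fermat.Agent.T1 Fermat.Agent.T1G Fermat.Agent.T2 Fermat.Agent.LR

/-! ### Torsion-free coefficients -/

section TF

variable {M : ℕ} [NeZero M] {K K' : Subgroup (ZMod M)ˣ} (hle : K ≤ K') {I : Type} [Fintype I]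
  (τ : IhfTrans (ihfGammaH M K) (ihfGammaH M K') I)
  {A : Type*} [AddCommGroup A] (hA : ∀ n : ℕ, n ≠ 0 → ∀ a : A, n • a = 0 → a = 0)

variable {ℓ : ℕ} (hℓ : ℓ.Prime) (hℓM : ¬ ℓ ∣ M)

end TF

/-! ### `k`-valued parabolic homomorphisms -/

section Field

variable {M : ℕ} [NeZero M] {K K' : Subgroup (ZMod M)ˣ} (hle : K ≤ K') {I : Type} [Fintype I]
  (τ : IhfTrans (ihfGammaH M K) (ihfGammaH M K') I)
  {𝒪 k : Type*} [CommRing 𝒪] [IsDomain 𝒪] [CharZero 𝒪] [Field k]
  (π : 𝒪 →+* k) (hπ : Function.Surjective π) (h2 : IsUnit (2 : 𝒪)) (h3 : JhfThree 𝒪 M)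
  (hneg : (-1 : (ZMod M)ˣ) ∈ K)
  {ℓ : ℕ} (hℓ : ℓ.Prime) (hℓM : ¬ ℓ ∣ M)

include hπ h2 h3 hneg in
/-- **the transfer commutes with `T_ℓ`** on `Hom_par(-, k)` -/
theorem jhf_cor_T (φ : ↥(parabolicHoms k (ihfGammaH M K) k)) :
    (τ.sys (ihfGammaH_mono hle)).corPar k k ((ihfSysT M K hℓ hℓM).homPar k k φ)
      = (ihfSysT M K' hℓ hℓM).homPar k k ((τ.sys (ihfGammaH_mono hle)).corPar k k φ) := by
  have := jhf_ext_cast (ihfGammaH M K) π (ihf_neg_one_mem hneg) hπ h2 (jhf_threeG_of_three _ h3)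
    (((τ.sys (ihfGammaH_mono hle)).corPar k k).comp ((ihfSysT M K hℓ hℓM).homPar k k))
    (((ihfSysT M K' hℓ hℓM).homPar k k).comp ((τ.sys (ihfGammaH_mono hle)).corPar k k))
    (fun φ₀ => by
      rw [LinearMap.comp_apply, LinearMap.comp_apply, ihf_cast_homPar, ihf_cast_corPar,
        ihf_cast_corPar, ihf_cast_homPar]
      congr 1
      apply Subtype.ext
      exact ihf_cor_T_tf hle τ ihf_int_tf hℓ hℓM φ₀.1)
  exact LinearMap.congr_fun this φ

include hπ h2 h3 hneg in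
/-- **the transfer commutes with the conjugations** on `Hom_par(-, k)` -/
theorem jhf_cor_C (g : SL(2, ℤ)) (hg : g ∈ Gamma0 M) (φ : ↥(parabolicHoms k (ihfGammaH M K) k)) :
    (τ.sys (ihfGammaH_mono hle)).corPar k k ((ihfSysC M K g hg).homPar k k φ)
      = (ihfSysC M K' g hg).homPar k k ((τ.sys (ihfGammaH_mono hle)).corPar k k φ) := by
  have := jhf_ext_cast (ihfGammaH M K) π (ihf_neg_one_mem hneg) hπ h2 (jhf_threeG_of_three _ h3)
    (((τ.sys (ihfGammaH_mono hle)).corPar k k).comp ((ihfSysC M K g hg).homPar k k))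
    (((ihfSysC M K' g hg).homPar k k).comp ((τ.sys (ihfGammaH_mono hle)).corPar k k))
    (fun φ₀ => by
      rw [LinearMap.comp_apply, LinearMap.comp_apply, ihf_cast_homPar, ihf_cast_corPar,
        ihf_cast_corPar, ihf_cast_homPar]
      congr 1
      apply Subtype.ext
      exact ihf_cor_C_tf hle τ ihf_int_tf g hg φ₀.1)
  exact LinearMap.congr_fun this φ

include hπ h2 h3 hneg in
/-- **the transfer commutes with the diamond operators** on `Hom_par(-, k)` -/
theorem jhf_cor_D (d : (ZMod M)ˣ) (φ : ↥(parabolicHoms k (ihfGammaH M K) k)) :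
    (τ.sys (ihfGammaH_mono hle)).corPar k k ((ihfSysD M K d).homPar k k φ)
      = (ihfSysD M K' d).homPar k k ((τ.sys (ihfGammaH_mono hle)).corPar k k φ) :=
  jhf_cor_C hle τ π hπ h2 h3 hneg _ _ φ

end Field

end Fermat.Agent.Ihara
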