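/-
MLT / Fr3 (helper9): fork of `Lib/Ihara/Fr/ToolB.lean` for `p = 3` (generated by a rename
script from the frozen file: only the declarations depending on `IhfLevel` / `IsUnit 3` are repeated, with
the prefix `ih`/`Ih` replaced by `jh`/`Jh`; the level hypothesis is `JhfLevel`, see `Fr3/Fr/Three.lean`).
-/
import Mathlib
import Fermat.Agent.Lib.Ihara.Fr.Pair
import Fermat.Agent.Lib.Ihara.Fr.Red
import Fermat.Agent.Lib.MLT.Fr3.Fr.Red
import Fermat.Agent.Lib.Ihara.Fr.Step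
import Fermat.Agent.Lib.Ihara.Fr.Cor
import Fermat.Agent.Lib.LR.HeckeLat
import Fermat.Agent.Lib.LR.Dual.Main
import Fermat.Agent.Lib.Ihara.Fr.ToolB
import Fermat.Agent.Lib.MLT.Fr3.Fr.Three

set_option autoImplicit false
set_option linter.unusedSectionVars false
set_option linter.unusedVariables false
set_option linter.style.haveILetI false

namespace Fermat.Agent.Ihara

open Matrix MatrixGroups CongruenceSubgroup ModularCurve ModularCurve.Period
open Fermat.Agent.DS Fermat.Agent.T1 Fermat.Agent.T1G Fermat.Agent.T2 Fermat.Agent.LR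

/-! ### Division of integral homomorphisms -/

/-! ### Self-adjointness of `T_ℓ` on `Γ_⊤ = Γ₀(M)` -/

section SelfAdj

variable {M : ℕ} [NeZero M] {ℓ : ℕ} (hℓ : ℓ.Prime) (hℓM : ¬ ℓ ∣ M)

end SelfAdj

/-! ### The Eisenstein input -/

section Eis

variable {M : ℕ} [NeZero M] {K K' : Subgroup (ZMod M)ˣ} {ℓ : ℕ} (hℓ : ℓ.Prime) (hℓM : ¬ ℓ ∣ M)
  (p : ℕ) [hp : Fact p.Prime]

end Eis

/-! ### Tool B -/

section Main

variable {M : ℕ} [NeZero M] {K : Subgroup (ZMod M)ˣ} (hneg : (-1 : (ZMod M)ˣ) ∈ K)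
  {ℓ : ℕ} (hℓ : ℓ.Prime) (hℓM : ¬ ℓ ∣ M) (p : ℕ) [hp : Fact p.Prime]
  {I : Type} [Fintype I] [Nonempty I]
  (τ : IhfTrans (ihfGammaH M K) (ihfGammaH M (⊤ : Subgroup (ZMod M)ˣ)) I)

variable {𝒪 k : Type*} [CommRing 𝒪] [IsDomain 𝒪] [CharZero 𝒪] [Field k] [hk : CharP k p]
  (π : 𝒪 →+* k) (hπ : Function.Surjective π) (h2 : IsUnit (2 : 𝒪)) (h3 : JhfThree 𝒪 M)

include hneg hπ h2 h3 hp hk in
/-- **Tool B** over `k`: `η Hom_par(Γ_⊤, k) ⊆ cor Hom_par(Γ_K, k)` -/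
theorem jhf_toolB (x : ↥(parabolicHoms k (ihfGammaH M (⊤ : Subgroup (ZMod M)ˣ)) k)) :
    ∃ y : ↥(parabolicHoms k (ihfGammaH M K) k),
      (ihfSysT M ⊤ hℓ hℓM).homPar k k x - ((ℓ : k) + 1) • x
        = (τ.sys (ihfGammaH_mono le_top)).corPar k k y := by
  have hx : x ∈ Submodule.span k
      (Set.range (tgeCastL (ihfGammaH M (⊤ : Subgroup (ZMod M)ˣ)) k)) := by
    rw [jhf_span_top _ π (ihf_neg_one_mem (Subgroup.mem_top _)) hπ h2 (jhf_threeG_of_three _ h3)]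
    exact Submodule.mem_top
  induction hx using Submodule.span_induction with
  | mem x hx =>
    obtain ⟨x₀, rfl⟩ := hx
    obtain ⟨y, z, h⟩ := ihf_toolB_int hneg hℓ hℓM p τ x₀
    refine ⟨tgeCastL _ k y, ?_⟩
    rw [ihf_cast_homPar, ihf_cast_corPar]
    have h1 := congrArg (tgeCastL (ihfGammaH M (⊤ : Subgroup (ZMod M)ˣ)) k) h
    rw [map_sub, map_add, map_smul, map_smul] at h1
    have h2 : ((p : ℤ) • tgeCastL (ihfGammaH M (⊤ : Subgroup (ZMod M)ˣ)) k z) = 0 := by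
      rw [← Int.cast_smul_eq_zsmul k, Int.cast_natCast, CharP.cast_eq_zero, zero_smul]
    rw [h2, add_zero, ← Int.cast_smul_eq_zsmul k] at h1
    rw [← h1]
    push_cast
    rfl
  | zero => exact ⟨0, by simp⟩
  | add x x' _ _ hx hx' =>
    obtain ⟨y, hy⟩ := hx
    obtain ⟨y', hy'⟩ := hx'
    refine ⟨y + y', ?_⟩
    rw [map_add, map_add, smul_add, ← hy, ← hy']
    abel
  | smul a x _ hx =>
    obtain ⟨y, hy⟩ := hx
    refine ⟨a • y, ?_⟩
    rw [map_smul, map_smul, ← hy, smul_sub, smul_comm]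

end Main

end Fermat.Agent.Ihara
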