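/-
MLT / Fr3 (helper9): fork of `Lib/Ihara/Fr/Ind.lean` for `p = 3` (generated by a rename
script from the frozen file: only the declarations depending on `IhfLevel` / `IsUnit 3` are repeated, with
the prefix `ih`/`Ih` replaced by `jh`/`Jh`; the level hypothesis is `JhfLevel`, see `Fr3/Fr/Three.lean`).
-/
import Mathlib
import Fermat.Agent.Lib.Ihara.Fr.Abs
import Fermat.Agent.Lib.Ihara.Fr.Ops
import Fermat.Agent.Lib.MLT.Fr3.Fr.Ops
import Fermat.Agent.Lib.Ihara.Fr.Cyc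
import Fermat.Agent.Lib.MLT.Fr3.Fr.Cyc
import Fermat.Agent.Lib.Ihara.Fr.ToolB
import Fermat.Agent.Lib.MLT.Fr3.Fr.ToolB
import Fermat.Agent.Lib.MLT.Fr3.Fr.Defs
import Fermat.Agent.Lib.MLT.Fr3.Fr.Red
import Fermat.Agent.Lib.Ihara.Fr.Ind

set_option autoImplicit false
set_option linter.unusedSectionVars false
set_option linter.unusedVariables false
set_option linter.style.haveILetI false

namespace Fermat.Agent.Ihara

open Matrix MatrixGroups CongruenceSubgroup ModularCurve ModularCurve.Period Module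
open Fermat.Agent.DS Fermat.Agent.T1 Fermat.Agent.T1G Fermat.Agent.T2 Fermat.Agent.LR

/-! ### Finiteness -/

/-! ### The operators -/

section Ops

variable {M : ℕ} [NeZero M] {ℓ : ℕ} (hℓ : ℓ.Prime) (hℓM : ¬ ℓ ∣ M) (k : Type*) [Field k]

variable {k} {K K' : Subgroup (ZMod M)ˣ}

end Ops

/-! ### The cyclic step -/

section CycStep

variable {p M : ℕ} [NeZero M] [hp : Fact p.Prime] {K K' : Subgroup (ZMod M)ˣ} {d : (ZMod M)ˣ}
  (hc : IhfCyc M K K' d p) {ℓ : ℕ} (hℓ : ℓ.Prime) (hℓM : ¬ ℓ ∣ M)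
  {𝒪 k : Type*} [CommRing 𝒪] [IsDomain 𝒪] [CharZero 𝒪] [Field k] [hk : CharP k p]
  (π : 𝒪 →+* k) (hπ : Function.Surjective π) (h2 : IsUnit (2 : 𝒪)) (h3 : JhfThree 𝒪 M)
  (hneg : (-1 : (ZMod M)ˣ) ∈ K)
  (hpar : ∀ γ : SL(2, ℤ), γ ∈ Gamma0 M → (γ : Matrix (Fin 2) (Fin 2) ℤ).trace ^ 2 = 4 →
    γ ∈ ihfGammaH M K)

include hc hk hpar hπ h2 h3 hneg in
/-- **the cyclic step** for `K ≤ K' = K ⟨d⟩`, `[K' : K] = p` -/
theorem jhf_cyc_step
    (hcorW : ∀ x ∈ ihfBij (ihfEta hℓ hℓM k K'), ∃ y ∈ ihfBij (ihfEta hℓ hℓM k K),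
      ((ihfTransCyc hc hp.out.pos).sys (ihfGammaH_mono hc.le)).corPar k k y = x) :
    finrank k ↥(ihfBij (ihfEta hℓ hℓM k K)) = p * finrank k ↥(ihfBij (ihfEta hℓ hℓM k K')) ∧
    ∀ y ∈ ihfBij (ihfEta hℓ hℓM k K),
      ((ihfTransCyc hc hp.out.pos).sys (ihfGammaH_mono hc.le)).corPar k k y = 0 →
      ∃ z ∈ ihfBij (ihfEta hℓ hℓM k K), y = ihfDel k K d z - z := by
  set τ := ihfTransCyc hc hp.out.pos with hτ
  set cor := (τ.sys (ihfGammaH_mono hc.le)).corPar k k with hcor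
  set res := t2fResPar (ihfGammaH_mono hc.le) k k with hres
  have hδp : (ihfDel k K d) ^ p = 1 := by
    rw [ihfDel_pow]
    exact LinearMap.ext fun φ => ihfDel_of_mem hc.pow φ
  have hδη : ∀ x, ihfDel k K d (ihfEta hℓ hℓM k K x) = ihfEta hℓ hℓM k K (ihfDel k K d x) :=
    ihfEta_del hℓ hℓM d
  have hresη : ∀ x, res (ihfEta hℓ hℓM k K' x) = ihfEta hℓ hℓM k K (res x) :=
    ihfEta_res hℓ hℓM hc.le
  have hcorη : ∀ x, cor (ihfEta hℓ hℓM k K x) = ihfEta hℓ hℓM k K' (cor x) := by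
    intro x
    rw [ihfEta_apply, ihfEta_apply, map_sub, map_smul]
    congr 1
    exact jhf_cor_T hc.le τ π hπ h2 h3 hneg hℓ hℓM x
  have hrc : ∀ x, res (cor x) = ∑ j ∈ Finset.range p, ((ihfDel k K d) ^ j) x := by
    intro x
    apply Subtype.ext
    have h1 := ihf_res_cor hc.le τ x.1
    rw [← Fin.sum_univ_eq_sum_range (fun j => ((ihfDel k K d) ^ j) x) p]
    show t2fRes (ihfGammaH_mono hc.le) k ((τ.sys (ihfGammaH_mono hc.le)).cor k x.1) = _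
    rw [h1, Submodule.coe_sum]
    refine Finset.sum_congr rfl fun j _ => ?_
    rw [ihfDel_pow]
    rfl
  have hext : ∀ φ, ihfDel k K d φ = φ → ∃ ψ, res ψ = ihfEta hℓ hℓM k K φ :=
    ihf_cyc_ext hc hℓ hℓM hpar
  have hker : ∀ ψ, res ψ = 0 → ihfEta hℓ hℓM k K' ψ = 0 := ihfEta_eis hℓ hℓM hc.le
  have hδres : ∀ ψ, ihfDel k K d (res ψ) = res ψ := by
    intro ψ
    rw [← ihfDel_res hc.le d ψ, ihfDel_of_mem hc.mem]
  exact ⟨ihf_step_finrank (ihfDel k K d) (ihfEta hℓ hℓM k K) (ihfEta hℓ hℓM k K') res cor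
      hδp hδη hresη hcorη hrc hext hker hcorW hδres,
    fun y hy h0 => ihf_step_ker_cor (ihfDel k K d) (ihfEta hℓ hℓM k K) (ihfEta hℓ hℓM k K') res cor
      hδp hδη hresη hrc hext hker hcorW hδres hy h0⟩

end CycStep

/-! ### The trivial transversal -/

/-! ### The induction -/

section Induction

variable {p M : ℕ} [NeZero M] [hp : Fact p.Prime] {H : Subgroup (ZMod M)ˣ} (hL : JhfLevel p M H)
  {ℓ : ℕ} (hℓ : ℓ.Prime) (hℓM : ¬ ℓ ∣ M)
  {𝒪 k : Type*} [CommRing 𝒪] [IsDomain 𝒪] [CharZero 𝒪] [Field k] [hk : CharP k p]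
  (π : 𝒪 →+* k) (hπ : Function.Surjective π) (h2 : IsUnit (2 : 𝒪)) (h3 : JhfThree 𝒪 M)

include hL hk in
theorem jhfDel_sub_one_nil {K : Subgroup (ZMod M)ˣ} (hHK : H ≤ K) (d : (ZMod M)ˣ) :
    ∃ n : ℕ, (ihfDel k K d - 1) ^ n = 0 := by
  obtain ⟨n, hn⟩ := hL.pgroup d
  refine ⟨p ^ n, ?_⟩
  rw [ihf_sub_one_pow_pow, ihfDel_pow]
  have : ihfDel k K (d ^ p ^ n) = 1 := LinearMap.ext fun φ => ihfDel_of_mem (hHK hn) φ
  rw [this]
  exact LinearMap.ext fun φ => sub_self _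

include hπ h2 h3 in
theorem jhfEta_cor {K K' : Subgroup (ZMod M)ˣ} (hle : K ≤ K') (hneg : (-1 : (ZMod M)ˣ) ∈ K)
    {I : Type} [Fintype I] (τ : IhfTrans (ihfGammaH M K) (ihfGammaH M K') I) (x : IhfH k k M K) :
    (τ.sys (ihfGammaH_mono hle)).corPar k k (ihfEta hℓ hℓM k K x)
      = ihfEta hℓ hℓM k K' ((τ.sys (ihfGammaH_mono hle)).corPar k k x) := by
  rw [ihfEta_apply, ihfEta_apply, map_sub, map_smul]
  congr 1
  exact jhf_cor_T hle τ π hπ h2 h3 hneg hℓ hℓM x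

include hπ h2 h3 in
theorem jhfDel_cor {K K' : Subgroup (ZMod M)ˣ} (hle : K ≤ K') (hneg : (-1 : (ZMod M)ˣ) ∈ K)
    {I : Type} [Fintype I] (τ : IhfTrans (ihfGammaH M K) (ihfGammaH M K') I) (d : (ZMod M)ˣ)
    (x : IhfH k k M K) :
    (τ.sys (ihfGammaH_mono hle)).corPar k k (ihfDel k K d x)
      = ihfDel k K' d ((τ.sys (ihfGammaH_mono hle)).corPar k k x) :=
  jhf_cor_D hle τ π hπ h2 h3 hneg d x

include hk hπ h2 h3 in
/-- the transfer to the top level is onto on the non-Eisenstein parts (Tool B) -/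
theorem jhf_corW_top {K : Subgroup (ZMod M)ˣ} (hneg : (-1 : (ZMod M)ˣ) ∈ K)
    {I : Type} [Fintype I] (τ : IhfTrans (ihfGammaH M K) (ihfGammaH M (⊤ : Subgroup (ZMod M)ˣ)) I)
    (x : IhfH k k M (⊤ : Subgroup (ZMod M)ˣ)) (hx : x ∈ ihfBij (ihfEta hℓ hℓM k ⊤)) :
    ∃ y ∈ ihfBij (ihfEta hℓ hℓM k K), (τ.sys (ihfGammaH_mono le_top)).corPar k k y = x := by
  haveI := ihf_trans_nonempty τ
  obtain ⟨x', hx', rfl⟩ := ihf_eta_surj_bij hx
  obtain ⟨y, hy⟩ := jhf_toolB hneg hℓ hℓM p τ π hπ h2 h3 x'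
  have hy' : (τ.sys (ihfGammaH_mono le_top)).corPar k k y = ihfEta hℓ hℓM k ⊤ x' := hy.symm
  have hmem : (τ.sys (ihfGammaH_mono le_top)).corPar k k y ∈ ihfBij (ihfEta hℓ hℓM k ⊤) := by
    rw [hy']; exact hx
  obtain ⟨y', hy'mem, e⟩ := ihf_bij_lift ((τ.sys (ihfGammaH_mono le_top)).corPar k k)
    (jhfEta_cor hℓ hℓM π hπ h2 h3 le_top hneg τ) y hmem
  exact ⟨y', hy'mem, e.trans hy'⟩

open Classical in
include hL hk hπ h2 h3 in
/-- **the main induction**, relative to a top group `T₀`, given the surjectivity of the transfers to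
`T₀` on the non-Eisenstein parts -/
theorem jhf_claim_rel (T₀ : Subgroup (ZMod M)ˣ)
    (hsurjTop : ∀ (K : Subgroup (ZMod M)ˣ), H ≤ K → ∀ (hKT : K ≤ T₀) (I : Type) [Fintype I]
      (τ : IhfTrans (ihfGammaH M K) (ihfGammaH M T₀) I),
      ∀ x ∈ ihfBij (ihfEta hℓ hℓM k T₀), ∃ y ∈ ihfBij (ihfEta hℓ hℓM k K),
        (τ.sys (ihfGammaH_mono hKT)).corPar k k y = x) :
    ∀ (n : ℕ) (K : Subgroup (ZMod M)ˣ), H ≤ K → ∀ (hKT : K ≤ T₀), K.index = n →
    ∀ (I : Type) [Fintype I] (τ : IhfTrans (ihfGammaH M K) (ihfGammaH M T₀) I),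
      finrank k ↥(ihfBij (ihfEta hℓ hℓM k K))
          = K.relIndex T₀ * finrank k ↥(ihfBij (ihfEta hℓ hℓM k T₀)) ∧
      (∀ y ∈ ihfBij (ihfEta hℓ hℓM k K), (τ.sys (ihfGammaH_mono hKT)).corPar k k y = 0 →
        y ∈ ⨆ d ∈ (Finset.univ.filter (· ∈ T₀) : Finset (ZMod M)ˣ),
          (ihfBij (ihfEta hℓ hℓM k K)).map (ihfDel k K d - 1)) := by
  classical
  intro n
  induction n using Nat.strong_induction_on with
  | _ n ih =>
    intro K hHK hKT hKn I _ τ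
    by_cases hK : K = T₀
    · subst hK
      refine ⟨by rw [Subgroup.relIndex_self, one_mul], ?_⟩
      intro y hy h0
      have h1 : (τ.sys (ihfGammaH_mono hKT)).corPar k k y = y := by
        apply Subtype.ext
        show (τ.sys (ihfGammaH_mono hKT)).cor k y.1 = y.1
        rw [IhfTrans.cor_indep (ihfGammaH_mono hKT) (ihfTransRefl _) τ y.1]
        exact ihfTransRefl_cor _ y.1
      rw [h1] at h0
      rw [h0]
      exact Submodule.zero_mem _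
    · obtain ⟨K', d, hc, hK'T⟩ := jhf_exists_cyc hL hHK hKT hK
      have hdT : d ∈ T₀ := hK'T hc.mem
      have hnegK : (-1 : (ZMod M)ˣ) ∈ K := hHK hL.neg_mem
      have hnegK' : (-1 : (ZMod M)ˣ) ∈ K' := hc.le hnegK
      have hHK' : H ≤ K' := hHK.trans hc.le
      have hparK : ∀ γ : SL(2, ℤ), γ ∈ Gamma0 M →
          (γ : Matrix (Fin 2) (Fin 2) ℤ).trace ^ 2 = 4 → γ ∈ ihfGammaH M K :=
        fun γ h0 ht => ihfGammaH_mono hHK (hL.par γ h0 ht)
      have hidx : K.index = p * K'.index := by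
        rw [← Subgroup.relIndex_mul_index hc.le, ihf_cyc_relindex hc hp.out.pos]
      have hrel : K.relIndex T₀ = p * K'.relIndex T₀ := by
        rw [← Subgroup.relIndex_mul_relIndex K K' T₀ hc.le hK'T, ihf_cyc_relindex hc hp.out.pos]
      have hK'pos : K'.index ≠ 0 := Subgroup.index_ne_zero_of_finite
      have hlt : K'.index < n := by
        rw [← hKn, hidx]
        have := hp.out.two_le
        have h1 : 0 < K'.index := Nat.pos_of_ne_zero hK'pos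
        nlinarith
      haveI : Fintype (↥T₀ ⧸ K'.subgroupOf T₀) := Fintype.ofFinite _
      set τ' := ihfTransRel hK'T with hτ'
      obtain ⟨ha', hc'⟩ := ih K'.index hlt K' hHK' hK'T rfl _ τ'
      set τc := ihfTransCyc hc hp.out.pos with hτc
      set corc := (τc.sys (ihfGammaH_mono hc.le)).corPar k k with hcorc
      set cor' := (τ'.sys (ihfGammaH_mono hK'T)).corPar k k with hcor'
      set cor := (τ.sys (ihfGammaH_mono hKT)).corPar k k with hcor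
      have hcomp : ∀ y, cor y = cor' (corc y) := by
        intro y
        apply Subtype.ext
        show (τ.sys (ihfGammaH_mono hKT)).cor k y.1
          = (τ'.sys (ihfGammaH_mono hK'T)).cor k ((τc.sys (ihfGammaH_mono hc.le)).cor k y.1)
        rw [IhfTrans.cor_cor τc τ' (ihfGammaH_mono hc.le) (ihfGammaH_mono hK'T)]
        exact IhfTrans.cor_indep ((ihfGammaH_mono hc.le).trans (ihfGammaH_mono hK'T))
          (τc.mul τ' (ihfGammaH_mono hc.le) (ihfGammaH_mono hK'T)) τ y.1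
      set WK := ihfBij (ihfEta hℓ hℓM k K) with hWK
      set WK' := ihfBij (ihfEta hℓ hℓM k K') with hWK'
      set WT := ihfBij (ihfEta hℓ hℓM k T₀) with hWT
      set S : Finset (ZMod M)ˣ := Finset.univ.filter (· ∈ T₀) with hS
      have h1 : WK.map corc ≤ WK' := by
        rintro _ ⟨y, hy, rfl⟩
        exact ihf_bij_map corc (jhfEta_cor hℓ hℓM π hπ h2 h3 hc.le hnegK τc) hy
      have h2' : WK'.map cor' ≤ WT := by
        rintro _ ⟨y, hy, rfl⟩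
        exact ihf_bij_map cor' (jhfEta_cor hℓ hℓM π hπ h2 h3 hK'T hnegK' τ') hy
      have hequiv : ∀ (d' : (ZMod M)ˣ) (y : IhfH k k M K),
          corc ((ihfDel k K d' - 1) y) = (ihfDel k K' d' - 1) (corc y) := by
        intro d' y
        rw [LinearMap.sub_apply, LinearMap.sub_apply, Module.End.one_apply, Module.End.one_apply,
          map_sub, jhfDel_cor π hπ h2 h3 hc.le hnegK τc]
      have hsurj : WK' ≤ WK.map corc := by
        refine ihf_descent corc cor' WK WK' WT S (fun d' => ihfDel k K' d' - 1)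
          (fun d' _ => jhfDel_sub_one_nil hL hHK' d') ?_ (fun d' _ => ihfDel_sub_one_mem hℓ hℓM d')
          ?_ h1 h2' (fun x hx h0 => hc' x hx h0) ?_
        · intro i j x
          simp only [LinearMap.sub_apply, Module.End.one_apply, map_sub]
          rw [ihfDel_comm j i x]
          abel
        · intro x₂ hx₂
          obtain ⟨y, hy, e⟩ := hsurjTop K hHK hKT I τ x₂ hx₂
          exact ⟨y, hy, (hcomp y).symm.trans e⟩
        · rintro d' - _ ⟨_, ⟨y, hy, rfl⟩, rfl⟩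
          exact ⟨(ihfDel k K d' - 1) y, ihfDel_sub_one_mem hℓ hℓM d' ⟨y, hy, rfl⟩, hequiv d' y⟩
      have hcorW : ∀ x ∈ WK', ∃ y ∈ WK, corc y = x := fun x hx => by
        obtain ⟨y, hy, e⟩ := hsurj hx
        exact ⟨y, hy, e⟩
      obtain ⟨hfin, hkerc⟩ := jhf_cyc_step hc hℓ hℓM π hπ h2 h3 hnegK hparK hcorW
      refine ⟨by rw [hfin, ha', hrel, mul_assoc], ?_⟩
      intro y hy h0
      have hmain := ihf_ker_comp corc cor' WK WK' S (fun d' => ihfDel k K' d' - 1)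
        (fun d' => ihfDel k K d' - 1) (ihfDel k K d) hequiv
        (fun d' _ => ihfDel_sub_one_mem hℓ hℓM d') hsurj h1 (fun x hx h0 => hc' x hx h0)
        (fun y hy h0 => hkerc y hy h0) hy (by rw [← hcomp]; exact h0)
      refine SetLike.le_def.mp (sup_le le_rfl ?_) hmain
      exact le_iSup₂ (f := fun i (_ : i ∈ S) => WK.map (ihfDel k K i - 1)) d
        (Finset.mem_filter.mpr ⟨Finset.mem_univ d, hdT⟩)

open Classical in
include hL hk hπ h2 h3 in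
/-- the claim relative to `⊤` -/
theorem jhf_claim_top (K : Subgroup (ZMod M)ˣ) (hHK : H ≤ K) (I : Type) [Fintype I]
    (τ : IhfTrans (ihfGammaH M K) (ihfGammaH M (⊤ : Subgroup (ZMod M)ˣ)) I) :
    finrank k ↥(ihfBij (ihfEta hℓ hℓM k K))
        = K.relIndex ⊤ * finrank k ↥(ihfBij (ihfEta hℓ hℓM k ⊤)) ∧
    (∀ y ∈ ihfBij (ihfEta hℓ hℓM k K), (τ.sys (ihfGammaH_mono le_top)).corPar k k y = 0 →
      y ∈ ⨆ d ∈ (Finset.univ.filter (· ∈ (⊤ : Subgroup (ZMod M)ˣ)) : Finset (ZMod M)ˣ),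
        (ihfBij (ihfEta hℓ hℓM k K)).map (ihfDel k K d - 1)) :=
  jhf_claim_rel hL hℓ hℓM π hπ h2 h3 ⊤
    (fun K' hHK' hKT I' _ τ' x hx =>
      jhf_corW_top hℓ hℓM π hπ h2 h3 (hHK' hL.neg_mem) τ' x hx)
    K.index K hHK le_top rfl I τ

open Classical in
include hL hk hπ h2 h3 in
/-- the transfer `W_K → W_{T₀}` is onto -/
theorem jhf_corW_rel {K T₀ : Subgroup (ZMod M)ˣ} (hHK : H ≤ K) (hKT : K ≤ T₀) (I : Type)
    [Fintype I] (τ : IhfTrans (ihfGammaH M K) (ihfGammaH M T₀) I)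
    (x : IhfH k k M T₀) (hx : x ∈ ihfBij (ihfEta hℓ hℓM k T₀)) :
    ∃ y ∈ ihfBij (ihfEta hℓ hℓM k K), (τ.sys (ihfGammaH_mono hKT)).corPar k k y = x := by
  have hHT : H ≤ T₀ := hHK.trans hKT
  have hnegK : (-1 : (ZMod M)ˣ) ∈ K := hHK hL.neg_mem
  have hnegT : (-1 : (ZMod M)ˣ) ∈ T₀ := hHT hL.neg_mem
  haveI : Fintype (↥(⊤ : Subgroup (ZMod M)ˣ) ⧸ T₀.subgroupOf ⊤) := Fintype.ofFinite _
  set τ₂ := ihfTransRel (le_top : T₀ ≤ ⊤) with hτ₂
  set cor₁ := (τ.sys (ihfGammaH_mono hKT)).corPar k k with hcor₁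
  set cor₂ := (τ₂.sys (ihfGammaH_mono le_top)).corPar k k with hcor₂
  obtain ⟨-, hkerT⟩ := jhf_claim_top hL hℓ hℓM π hπ h2 h3 T₀ hHT _ τ₂
  set S : Finset (ZMod M)ˣ := Finset.univ.filter (· ∈ (⊤ : Subgroup (ZMod M)ˣ)) with hS
  have hequiv : ∀ (d' : (ZMod M)ˣ) (y : IhfH k k M K),
      cor₁ ((ihfDel k K d' - 1) y) = (ihfDel k T₀ d' - 1) (cor₁ y) := by
    intro d' y
    rw [LinearMap.sub_apply, LinearMap.sub_apply, Module.End.one_apply, Module.End.one_apply,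
      map_sub, jhfDel_cor π hπ h2 h3 hKT hnegK τ]
  have hsurj : ihfBij (ihfEta hℓ hℓM k T₀) ≤ (ihfBij (ihfEta hℓ hℓM k K)).map cor₁ := by
    refine ihf_descent cor₁ cor₂ (ihfBij (ihfEta hℓ hℓM k K)) (ihfBij (ihfEta hℓ hℓM k T₀))
      (ihfBij (ihfEta hℓ hℓM k ⊤)) S (fun d' => ihfDel k T₀ d' - 1)
      (fun d' _ => jhfDel_sub_one_nil hL hHT d') ?_ (fun d' _ => ihfDel_sub_one_mem hℓ hℓM d')
      ?_ ?_ ?_ (fun x hx h0 => hkerT x hx h0) ?_
    · intro i j x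
      simp only [LinearMap.sub_apply, Module.End.one_apply, map_sub]
      rw [ihfDel_comm j i x]
      abel
    · intro x₂ hx₂
      obtain ⟨y, hy, e⟩ := jhf_corW_top hℓ hℓM π hπ h2 h3 hnegK
        (τ.mul τ₂ (ihfGammaH_mono hKT) (ihfGammaH_mono le_top)) x₂ hx₂
      refine ⟨y, hy, ?_⟩
      rw [← e]
      apply Subtype.ext
      exact IhfTrans.cor_cor τ τ₂ (ihfGammaH_mono hKT) (ihfGammaH_mono le_top) y.1
    · rintro _ ⟨y, hy, rfl⟩
      exact ihf_bij_map cor₁ (jhfEta_cor hℓ hℓM π hπ h2 h3 hKT hnegK τ) hy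
    · rintro _ ⟨y, hy, rfl⟩
      exact ihf_bij_map cor₂ (jhfEta_cor hℓ hℓM π hπ h2 h3 le_top hnegT τ₂) hy
    · rintro d' - _ ⟨_, ⟨y, hy, rfl⟩, rfl⟩
      exact ⟨(ihfDel k K d' - 1) y, ihfDel_sub_one_mem hℓ hℓM d' ⟨y, hy, rfl⟩, hequiv d' y⟩
  obtain ⟨y, hy, e⟩ := hsurj hx
  exact ⟨y, hy, e⟩

open Classical in
include hL hk hπ h2 h3 in
/-- **the claim**, relative to an arbitrary `T₀ ≥ K ≥ H` -/
theorem jhf_claim {K T₀ : Subgroup (ZMod M)ˣ} (hHK : H ≤ K) (hKT : K ≤ T₀) (I : Type) [Fintype I]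
    (τ : IhfTrans (ihfGammaH M K) (ihfGammaH M T₀) I) :
    finrank k ↥(ihfBij (ihfEta hℓ hℓM k K))
        = K.relIndex T₀ * finrank k ↥(ihfBij (ihfEta hℓ hℓM k T₀)) ∧
    (∀ y ∈ ihfBij (ihfEta hℓ hℓM k K), (τ.sys (ihfGammaH_mono hKT)).corPar k k y = 0 →
      y ∈ ⨆ d ∈ (Finset.univ.filter (· ∈ T₀) : Finset (ZMod M)ˣ),
        (ihfBij (ihfEta hℓ hℓM k K)).map (ihfDel k K d - 1)) :=
  jhf_claim_rel hL hℓ hℓM π hπ h2 h3 T₀
    (fun K' hHK' hK'T I' _ τ' x hx => jhf_corW_rel hL hℓ hℓM π hπ h2 h3 hHK' hK'T I' τ' x hx)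
    K.index K hHK hKT rfl I τ

end Induction

end Fermat.Agent.Ihara
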