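/-
MLT / Fr3 (helper9): fork of `Lib/Ihara/Fr/Free.lean` for `p = 3` (generated by a rename
script from the frozen file: only the declarations depending on `IhfLevel` / `IsUnit 3` are repeated, with
the prefix `ih`/`Ih` replaced by `jh`/`Jh`; the level hypothesis is `JhfLevel`, see `Fr3/Fr/Three.lean`).
-/
import Mathlib
import Fermat.Agent.Lib.Ihara.Fr.Ind
import Fermat.Agent.Lib.MLT.Fr3.Fr.Ind
import Fermat.Agent.Lib.Ihara.Fr.FreeK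
import Fermat.Agent.Lib.Ihara.Fr.Dvr
import Fermat.Agent.Lib.Ihara.Fr.RedX
import Fermat.Agent.Lib.MLT.Fr3.Fr.Cyc
import Fermat.Agent.Lib.MLT.Fr3.Fr.Defs
import Fermat.Agent.Lib.MLT.Fr3.Fr.Ops
import Fermat.Agent.Lib.MLT.Fr3.Fr.Red
import Fermat.Agent.Lib.MLT.Fr3.Fr.ToolB
import Fermat.Agent.Lib.Ihara.Fr.Free

set_option autoImplicit false
set_option linter.unusedSectionVars false
set_option linter.unusedVariables false
set_option linter.style.haveILetI false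

namespace Fermat.Agent.Ihara

open Matrix MatrixGroups CongruenceSubgroup ModularCurve ModularCurve.Period Module
open Fermat.Agent.DS Fermat.Agent.T1 Fermat.Agent.T1G Fermat.Agent.T2 Fermat.Agent.LR

/-! ### The residue field of `𝒪` -/

section Residue

variable {𝒪 : Type*} [CommRing 𝒪] [IsLocalRing 𝒪] {p : ℕ}

end Residue

/-! ### The `k`-level statement -/

section KLevel

variable {p M : ℕ} [NeZero M] [hp : Fact p.Prime] {H : Subgroup (ZMod M)ˣ} (hL : JhfLevel p M H)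
  {ℓ : ℕ} (hℓ : ℓ.Prime) (hℓM : ¬ ℓ ∣ M)
  {𝒪 k : Type*} [CommRing 𝒪] [IsDomain 𝒪] [CharZero 𝒪] [Field k] [hk : CharP k p]
  (π : 𝒪 →+* k) (hπ : Function.Surjective π) (h2 : IsUnit (2 : 𝒪)) (h3 : JhfThree 𝒪 M)

open Classical in
include hL hk hπ h2 h3 in
/-- a diamond-stable summand `U` of `Hom_par(Γ_H, k)` (with stable complement) contained in the
non-Eisenstein part has a basis of translates `⟨out ḡ⟩ z_i` -/
theorem jhf_free_k [Fintype ((ZMod M)ˣ ⧸ H)] (U Y : Submodule k (IhfH k k M H))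
    (hU : ∀ d, ∀ x ∈ U, ihfDel k H d x ∈ U) (hY : ∀ d, ∀ x ∈ Y, ihfDel k H d x ∈ Y)
    (hsup : U ⊔ Y = ⊤) (hinf : U ⊓ Y = ⊥) (hUW : U ≤ ihfBij (ihfEta hℓ hℓM k H)) :
    ∃ (n : ℕ) (z : Fin n → IhfH k k M H), (∀ i, z i ∈ U) ∧
      LinearIndependent k
        (fun x : Fin n × ((ZMod M)ˣ ⧸ H) => ihfDel k H (Quotient.out x.2) (z x.1)) ∧
      Submodule.span k (Set.range
        fun x : Fin n × ((ZMod M)ˣ ⧸ H) => ihfDel k H (Quotient.out x.2) (z x.1)) = U := by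
  set W := ihfBij (ihfEta hℓ hℓM k H) with hW
  set Z := Y ⊓ W with hZ
  have hWδ : ∀ d, ∀ x ∈ W, ihfDel k H d x ∈ W := fun d x hx =>
    ihf_bij_map (ihfDel k H d) (fun y => ihfEta_del hℓ hℓM d y) hx
  have hZδ : ∀ d, ∀ x ∈ Z, ihfDel k H d x ∈ Z := fun d x hx => ⟨hY d x hx.1, hWδ d x hx.2⟩
  have hsup' : U ⊔ Z = W := by
    rw [hZ, ← sup_inf_assoc_of_le Y hUW, hsup, top_inf_eq]
  have hinf' : U ⊓ Z = ⊥ := by
    rw [eq_bot_iff, ← hinf]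
    exact inf_le_inf_left _ inf_le_left
  have hneg : (-1 : (ZMod M)ˣ) ∈ H := hL.neg_mem
  set τ := ihfTransTop H with hτ
  set corT := (τ.sys (ihfGammaH_mono le_top)).corPar k k with hcorT
  obtain ⟨hdim, hker⟩ := jhf_claim hL hℓ hℓM π hπ h2 h3 (le_refl H) le_top _ τ
  refine ihf_free_count H (fun d => ihfDel k H d) (fun d d' x => ihfDel_mul d d' x)
    (fun h hh x => ihfDel_of_mem hh x) (fun d => jhfDel_sub_one_nil hL le_rfl d) W U Z hU hZδ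
    hsup' hinf' corT ?_ ?_ ?_
  · intro d x
    rw [hcorT, jhfDel_cor π hπ h2 h3 le_top hneg τ d x]
    exact ihfDel_of_mem (Subgroup.mem_top d) _
  · intro y hy h0
    refine SetLike.le_def.mp ?_ (hker y hy h0)
    exact iSup₂_le fun d _ => le_iSup₂ (f := fun d (_ : d ∈ (Finset.univ : Finset (ZMod M)ˣ)) =>
      W.map (ihfDel k H d - 1)) d (Finset.mem_univ d)
  · have hmap : W.map corT = ihfBij (ihfEta hℓ hℓM k ⊤) := by
      apply le_antisymm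
      · rintro _ ⟨y, hy, rfl⟩
        exact ihf_bij_map corT (jhfEta_cor hℓ hℓM π hπ h2 h3 le_top hneg τ) hy
      · intro x hx
        obtain ⟨y, hy, e⟩ := jhf_corW_top hℓ hℓM π hπ h2 h3 hneg τ x hx
        exact ⟨y, hy, e⟩
    rw [hmap, hdim, Subgroup.relIndex_top_right, Subgroup.index, Nat.card_eq_fintype_card]

end KLevel

/-! ### The reduction of a summand -/

section Bar

variable (Γ : Subgroup SL(2, ℤ)) {𝒪 k : Type*} [CommRing 𝒪] [Field k]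
  (π : 𝒪 →+* k) (hπ : Function.Surjective π)

variable [Γ.FiniteIndex] [IsDomain 𝒪] [IsLocalRing 𝒪]

include hπ in
theorem jhfRed_surjective [CharZero 𝒪] (hneg : (-1 : SL(2, ℤ)) ∈ Γ) (h2 : IsUnit (2 : 𝒪))
    (h3 : JhfThreeG 𝒪 Γ) : Function.Surjective (ihfRed Γ π) := by
  letI : Fintype (SL(2, ℤ) ⧸ Γ) := Subgroup.fintypeQuotientOfFiniteIndex
  intro ψ
  obtain ⟨φ, hφ, e⟩ := jhf_lift_par (lrdSysOf Γ hneg) π hπ h2 (jhf_chi_of_threeG _ h3) ψ.1 ψ.2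
  exact ⟨⟨φ, hφ⟩, Subtype.ext e⟩

theorem jhfBar_sup [CharZero 𝒪] (hneg : (-1 : SL(2, ℤ)) ∈ Γ) (h2 : IsUnit (2 : 𝒪))
    (h3 : JhfThreeG 𝒪 Γ) (X Y : Submodule 𝒪 ↥(parabolicHoms 𝒪 Γ 𝒪)) (h : X ⊔ Y = ⊤) :
    ihfBar Γ π hπ X ⊔ ihfBar Γ π hπ Y = ⊤ := by
  rw [eq_top_iff]
  rintro ψ -
  obtain ⟨φ, rfl⟩ := jhfRed_surjective Γ π hπ hneg h2 h3 ψ
  have hφ : φ ∈ X ⊔ Y := by rw [h]; exact Submodule.mem_top
  obtain ⟨x, hx, y, hy, rfl⟩ := Submodule.mem_sup.mp hφ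
  rw [map_add]
  exact Submodule.add_mem_sup ((ihf_mem_bar Γ π hπ).mpr ⟨x, hx, rfl⟩)
    ((ihf_mem_bar Γ π hπ).mpr ⟨y, hy, rfl⟩)

variable (hπker : ∀ a, π a = 0 ↔ a ∈ IsLocalRing.maximalIdeal 𝒪)
  {ϖ : 𝒪} (hϖ : IsLocalRing.maximalIdeal 𝒪 = Ideal.span {ϖ}) (hϖ0 : ϖ ≠ 0)

end Bar

section BarEis

variable {M : ℕ} [NeZero M] {H : Subgroup (ZMod M)ˣ} {ℓ₀ : ℕ} (hℓ₀ : ℓ₀.Prime) (hℓ₀M : ¬ ℓ₀ ∣ M)
  {𝒪 k : Type*} [CommRing 𝒪] [IsDomain 𝒪] [IsLocalRing 𝒪] [Field k]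
  (π : 𝒪 →+* k) (hπ : Function.Surjective π)
  (hπker : ∀ a, π a = 0 ↔ a ∈ IsLocalRing.maximalIdeal 𝒪)
  {ϖ : 𝒪} (hϖ : IsLocalRing.maximalIdeal 𝒪 = Ideal.span {ϖ}) (hϖ0 : ϖ ≠ 0)

end BarEis

/-! ### The main theorem -/

/-- the hypothesis `JhfThree` from the level hypotheses -/
theorem jhf_three_of_level {𝒪 : Type*} [CommRing 𝒪] [IsLocalRing 𝒪] {p M : ℕ}
    {H : Subgroup (ZMod M)ˣ} (hL : JhfLevel p M H)
    (hp𝒪 : (p : 𝒪) ∈ IsLocalRing.maximalIdeal 𝒪) : JhfThree 𝒪 M := by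
  rcases hL.three with h5 | h
  · left
    have := ihf_isUnit_natCast hL.prime hp𝒪 3 (by norm_num) (by omega)
    rwa [Nat.cast_ofNat] at this
  · exact Or.inr h

theorem jhf_free_main {𝒪 : Type*} [CommRing 𝒪] [IsDomain 𝒪] [IsDiscreteValuationRing 𝒪]
    [CharZero 𝒪] {p M : ℕ} [NeZero M] {H : Subgroup (ZMod M)ˣ} (hL : JhfLevel p M H)
    (hp𝒪 : (p : 𝒪) ∈ IsLocalRing.maximalIdeal 𝒪)
    {ℓ₀ : ℕ} (hℓ₀ : ℓ₀.Prime) (hℓ₀M : ¬ ℓ₀ ∣ M)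
    (X Y : Submodule 𝒪 (IhfH 𝒪 𝒪 M H)) (hX : IhfSummand M H hℓ₀ hℓ₀M X Y) :
    ∃ (n : ℕ) (w : Fin n → IhfH 𝒪 𝒪 M H) (b : Module.Basis (Fin n × ((ZMod M)ˣ ⧸ H)) 𝒪 X),
      ∀ (i : Fin n) (d : (ZMod M)ˣ),
        ((b (i, (d : (ZMod M)ˣ ⧸ H)) : X) : IhfH 𝒪 𝒪 M H)
          = (ihfSysD M H d).homPar 𝒪 𝒪 (w i) := by
  classical
  haveI : Fact p.Prime := ⟨hL.prime⟩
  haveI : CharP (IsLocalRing.ResidueField 𝒪) p := ihf_charP_residue hL.prime hp𝒪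
  haveI : Fintype ((ZMod M)ˣ ⧸ H) := Fintype.ofFinite _
  have h5 : 3 ≤ p := by
    have := hL.prime.two_le
    have := hL.odd
    omega
  set k := IsLocalRing.ResidueField 𝒪 with hk
  set π : 𝒪 →+* k := IsLocalRing.residue 𝒪 with hπdef
  have hπ : Function.Surjective π := IsLocalRing.residue_surjective
  have hπker : ∀ a, π a = 0 ↔ a ∈ IsLocalRing.maximalIdeal 𝒪 :=
    fun a => IsLocalRing.residue_eq_zero_iff a
  have h2 : IsUnit (2 : 𝒪) := by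
    have := ihf_isUnit_natCast hL.prime hp𝒪 2 (by norm_num) (by omega)
    rwa [Nat.cast_ofNat] at this
  have h3 : JhfThree 𝒪 M := jhf_three_of_level hL hp𝒪
  obtain ⟨ϖ, hϖirr⟩ := IsDiscreteValuationRing.exists_irreducible 𝒪
  have hϖ : IsLocalRing.maximalIdeal 𝒪 = Ideal.span {ϖ} := hϖirr.maximalIdeal_eq
  have hϖ0 : ϖ ≠ 0 := hϖirr.ne_zero
  set Γ := ihfGammaH M H with hΓ
  have hnegΓ : (-1 : SL(2, ℤ)) ∈ Γ := ihf_neg_one_mem hL.neg_mem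
  -- the `k`-level statement
  obtain ⟨n, z, hzU, hli, hspan⟩ := jhf_free_k hL hℓ₀ hℓ₀M π hπ h2 h3
    (ihfBar Γ π hπ X) (ihfBar Γ π hπ Y)
    (fun d => ihfBar_homPar Γ π hπ (ihfSysD M H d) X (hX.diam_X d))
    (fun d => ihfBar_homPar Γ π hπ (ihfSysD M H d) Y (hX.diam_Y d))
    (jhfBar_sup Γ π hπ hnegΓ h2 (jhf_threeG_of_three _ h3) X Y hX.compl.sup_eq_top)
    (ihfBar_inf Γ π hπ hπker hϖ hϖ0 X Y hX.compl)
    (ihfBar_le_bij hℓ₀ hℓ₀M π hπ hπker hϖ hϖ0 hX)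
  -- lift the generators
  choose w hwX hw using fun i => (ihf_mem_bar Γ π hπ).mp (hzU i)
  set b₁ : Fin n × ((ZMod M)ˣ ⧸ H) → IhfH 𝒪 𝒪 M H :=
    fun x => (ihfSysD M H (Quotient.out x.2)).homPar 𝒪 𝒪 (w x.1) with hb₁
  have hb₁X : ∀ x, b₁ x ∈ X := fun x => hX.diam_X _ _ (hwX x.1)
  have hb₁red : (ihfRed Γ π) ∘ b₁
      = fun x : Fin n × ((ZMod M)ˣ ⧸ H) => ihfDel k H (Quotient.out x.2) (z x.1) := by
    funext x
    show ihfRed Γ π ((ihfSysD M H (Quotient.out x.2)).homPar 𝒪 𝒪 (w x.1)) = _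
    rw [ihfRed_homPar, hw]
    rfl
  have htf : ∀ (a : 𝒪) (x : IhfH 𝒪 𝒪 M H), a ≠ 0 → a • x = 0 → x = 0 := by
    intro a x ha hax
    apply Subtype.ext
    refine AddMonoidHom.ext fun γ => ?_
    have h1 : a • (x.1 γ) = 0 := DFunLike.congr_fun (congrArg Subtype.val hax) γ
    rw [smul_eq_mul] at h1
    exact (mul_eq_zero.mp h1).resolve_left ha
  have hli₁ : LinearIndependent 𝒪 b₁ :=
    ihf_linearIndependent_of_red π (fun a h => (hπker a).mp h) (ihfRed Γ π) htf b₁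
      (by rw [hb₁red]; exact hli)
  have hXfg : X.FG := IsNoetherian.noetherian X
  have hsp₁ : X ≤ Submodule.span 𝒪 (Set.range b₁) := by
    refine ihf_span_of_red π (fun a h => (hπker a).mp h) (ihfRed Γ π) hπ X hXfg
      (fun x hx h => ihf_summand_ker' Γ π hπker hϖ hϖ0 X Y hX.compl x hx h) b₁ hb₁X ?_
    intro x hx
    rw [hb₁red, hspan]
    exact (ihf_mem_bar Γ π hπ).mpr ⟨x, hx, rfl⟩
  set b₀ : Fin n × ((ZMod M)ˣ ⧸ H) → X := fun x => ⟨b₁ x, hb₁X x⟩ with hb₀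
  have hli₀ : LinearIndependent 𝒪 b₀ := by
    apply LinearIndependent.of_comp X.subtype
    exact hli₁
  have hsp₀ : ⊤ ≤ Submodule.span 𝒪 (Set.range b₀) := by
    rintro x -
    have h1 : (x : IhfH 𝒪 𝒪 M H) ∈ Submodule.span 𝒪 (Set.range b₁) := hsp₁ x.2
    have h2 : Set.range b₁ = X.subtype '' (Set.range b₀) := by
      rw [← Set.range_comp]
      rfl
    rw [h2, ← Submodule.map_span] at h1
    obtain ⟨y, hy, e⟩ := h1
    have : y = x := Subtype.ext e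
    rwa [this] at hy
  refine ⟨n, w, Module.Basis.mk hli₀ hsp₀, fun i d => ?_⟩
  rw [Module.Basis.mk_apply]
  show (ihfSysD M H (Quotient.out (d : (ZMod M)ˣ ⧸ H))).homPar 𝒪 𝒪 (w i) = _
  obtain ⟨h, hh⟩ := QuotientGroup.mk_out_eq_mul H d
  apply Subtype.ext
  show (ihfSysD M H (Quotient.out (d : (ZMod M)ˣ ⧸ H))).hom 𝒪 (w i).1 = (ihfSysD M H d).hom 𝒪 (w i).1
  rw [hh, ihfSysD_hom_mul, ihfSysD_hom_of_mem M H h h.2]

end Fermat.Agent.Ihara
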