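/-
MLT / Fr3 (helper9): fork of `Lib/Ihara/Fr/Control.lean` for `p = 3` (generated by a rename
script from the frozen file: only the declarations depending on `IhfLevel` / `IsUnit 3` are repeated, with
the prefix `ih`/`Ih` replaced by `jh`/`Jh`; the level hypothesis is `JhfLevel`, see `Fr3/Fr/Three.lean`).
-/
import Mathlib
import Fermat.Agent.Lib.Ihara.Fr.Free
import Fermat.Agent.Lib.MLT.Fr3.Fr.Free
import Fermat.Agent.Lib.MLT.Fr3.Fr.Cyc
import Fermat.Agent.Lib.MLT.Fr3.Fr.Defs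
import Fermat.Agent.Lib.MLT.Fr3.Fr.Ind
import Fermat.Agent.Lib.MLT.Fr3.Fr.Ops
import Fermat.Agent.Lib.MLT.Fr3.Fr.Red
import Fermat.Agent.Lib.MLT.Fr3.Fr.ToolB
import Fermat.Agent.Lib.Ihara.Fr.Control

set_option autoImplicit false
set_option linter.unusedSectionVars false
set_option linter.unusedVariables false
set_option linter.style.haveILetI false

namespace Fermat.Agent.Ihara

open Matrix MatrixGroups CongruenceSubgroup ModularCurve ModularCurve.Period Module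
open Fermat.Agent.DS Fermat.Agent.T1 Fermat.Agent.T1G Fermat.Agent.T2 Fermat.Agent.LR

theorem jhf_control_main {𝒪 : Type*} [CommRing 𝒪] [IsDomain 𝒪] [IsDiscreteValuationRing 𝒪]
    [CharZero 𝒪] {p M : ℕ} [NeZero M] {H H' : Subgroup (ZMod M)ˣ} (hL : JhfLevel p M H)
    (hle : H ≤ H') (hp𝒪 : (p : 𝒪) ∈ IsLocalRing.maximalIdeal 𝒪)
    {ℓ₀ : ℕ} (hℓ₀ : ℓ₀.Prime) (hℓ₀M : ¬ ℓ₀ ∣ M)
    {I : Type} [Fintype I] (τ : IhfTrans (ihfGammaH M H) (ihfGammaH M H') I)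
    (X Y : Submodule 𝒪 (IhfH 𝒪 𝒪 M H)) (hX : IhfSummand M H hℓ₀ hℓ₀M X Y)
    (X' Y' : Submodule 𝒪 (IhfH 𝒪 𝒪 M H')) (hX' : IhfSummand M H' hℓ₀ hℓ₀M X' Y')
    (hcX : ∀ x ∈ X, (τ.sys (ihfGammaH_mono hle)).corPar 𝒪 𝒪 x ∈ X')
    (hcY : ∀ y ∈ Y, (τ.sys (ihfGammaH_mono hle)).corPar 𝒪 𝒪 y ∈ Y') :
    (∀ x' ∈ X', ∃ x ∈ X, (τ.sys (ihfGammaH_mono hle)).corPar 𝒪 𝒪 x = x') ∧
    (∀ x ∈ X, (τ.sys (ihfGammaH_mono hle)).corPar 𝒪 𝒪 x = 0 →
      x ∈ Submodule.span 𝒪 {y | ∃ d ∈ H', ∃ z ∈ X, y = (ihfSysD M H d).homPar 𝒪 𝒪 z - z}) := by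
  classical
  haveI : Fact p.Prime := ⟨hL.prime⟩
  haveI : CharP (IsLocalRing.ResidueField 𝒪) p := ihf_charP_residue hL.prime hp𝒪
  have h5 : 3 ≤ p := by
    have := hL.prime.two_le
    have := hL.odd
    omega
  set k := IsLocalRing.ResidueField 𝒪 with hk
  set π : 𝒪 →+* k := IsLocalRing.residue 𝒪 with hπdef
  have hπ : Function.Surjective π := IsLocalRing.residue_surjective
  have hπker : ∀ a, π a = 0 ↔ a ∈ IsLocalRing.maximalIdeal 𝒪 :=
    fun a => IsLocalRing.residue_eq_zero_iff a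
  have h2 : IsUnit (2 : 𝒪) := by
    have := ihf_isUnit_natCast hL.prime hp𝒪 2 (by norm_num) (by omega)
    rwa [Nat.cast_ofNat] at this
  have h3 : JhfThree 𝒪 M := jhf_three_of_level hL hp𝒪
  obtain ⟨ϖ, hϖirr⟩ := IsDiscreteValuationRing.exists_irreducible 𝒪
  have hϖ : IsLocalRing.maximalIdeal 𝒪 = Ideal.span {ϖ} := hϖirr.maximalIdeal_eq
  have hϖ0 : ϖ ≠ 0 := hϖirr.ne_zero
  have hϖmem : ϖ ∈ IsLocalRing.maximalIdeal 𝒪 := by
    rw [hϖ]; exact Ideal.mem_span_singleton_self ϖ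
  have hnegΓ : (-1 : SL(2, ℤ)) ∈ (ihfGammaH M H) := ihf_neg_one_mem hL.neg_mem
  set cor := (τ.sys (ihfGammaH_mono hle)).corPar 𝒪 𝒪 with hcor
  set cork := (τ.sys (ihfGammaH_mono hle)).corPar k k with hcork
  have hredcor : ∀ x, ihfRed (ihfGammaH M H') π (cor x) = cork (ihfRed (ihfGammaH M H) π x) :=
    fun x => ihfRed_corPar (ihfGammaH M H) π _ x
  -- the `k`-level facts
  have hXW : ihfBar (ihfGammaH M H) π hπ X ≤ ihfBij (ihfEta hℓ₀ hℓ₀M k H) :=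
    ihfBar_le_bij hℓ₀ hℓ₀M π hπ hπker hϖ hϖ0 hX
  have hX'W : ihfBar (ihfGammaH M H') π hπ X' ≤ ihfBij (ihfEta hℓ₀ hℓ₀M k H') :=
    ihfBar_le_bij hℓ₀ hℓ₀M π hπ hπker hϖ hϖ0 hX'
  have hsup : ihfBar (ihfGammaH M H) π hπ X ⊔ ihfBar (ihfGammaH M H) π hπ Y = ⊤ :=
    jhfBar_sup (ihfGammaH M H) π hπ hnegΓ h2 (jhf_threeG_of_three _ h3) X Y hX.compl.sup_eq_top
  have hinf : ihfBar (ihfGammaH M H) π hπ X ⊓ ihfBar (ihfGammaH M H) π hπ Y = ⊥ :=
    ihfBar_inf (ihfGammaH M H) π hπ hπker hϖ hϖ0 X Y hX.compl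
  have hinf' : ihfBar (ihfGammaH M H') π hπ X' ⊓ ihfBar (ihfGammaH M H') π hπ Y' = ⊥ :=
    ihfBar_inf (ihfGammaH M H') π hπ hπker hϖ hϖ0 X' Y' hX'.compl
  obtain ⟨-, hker⟩ := jhf_claim hL hℓ₀ hℓ₀M π hπ h2 h3 (le_refl H) hle I τ
  have hsurj := fun x hx => jhf_corW_rel hL hℓ₀ hℓ₀M π hπ h2 h3 (le_refl H) hle I τ x hx
  have hjac : IsLocalRing.maximalIdeal 𝒪 ≤ Ideal.jacobson ⊥ :=
    (IsLocalRing.jacobson_eq_maximalIdeal ⊥ bot_ne_top).ge
  have htf' : ∀ (x : IhfH 𝒪 𝒪 M H'), ϖ • x = 0 → x = 0 := by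
    intro x hax
    apply Subtype.ext
    refine AddMonoidHom.ext fun γ => ?_
    have h1 : ϖ • (x.1 γ) = 0 := DFunLike.congr_fun (congrArg Subtype.val hax) γ
    rw [smul_eq_mul] at h1
    exact (mul_eq_zero.mp h1).resolve_left hϖ0
  refine ⟨?_, ?_⟩
  · -- surjectivity
    have hsurjk : ∀ x' ∈ X', ∃ x ∈ X, ihfRed (ihfGammaH M H') π (cor x) = ihfRed (ihfGammaH M H') π x' := by
      intro x' hx'
      have h1 : ihfRed (ihfGammaH M H') π x' ∈ ihfBij (ihfEta hℓ₀ hℓ₀M k H') :=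
        hX'W ((ihf_mem_bar (ihfGammaH M H') π hπ).mpr ⟨x', hx', rfl⟩)
      obtain ⟨y, hyW, hy⟩ := hsurj _ h1
      have hy' : y ∈ ihfBar (ihfGammaH M H) π hπ X ⊔ ihfBar (ihfGammaH M H) π hπ Y := by rw [hsup]; exact Submodule.mem_top
      obtain ⟨u, hu, v, hv, rfl⟩ := Submodule.mem_sup.mp hy'
      obtain ⟨x, hx, rfl⟩ := (ihf_mem_bar (ihfGammaH M H) π hπ).mp hu
      obtain ⟨y₀, hy₀, rfl⟩ := (ihf_mem_bar (ihfGammaH M H) π hπ).mp hv
      refine ⟨x, hx, ?_⟩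
      rw [map_add, ← hredcor, ← hredcor] at hy
      have h4 : ihfRed (ihfGammaH M H') π (cor y₀) ∈ ihfBar (ihfGammaH M H') π hπ X' ⊓ ihfBar (ihfGammaH M H') π hπ Y' := by
        refine ⟨?_, (ihf_mem_bar (ihfGammaH M H') π hπ).mpr ⟨cor y₀, hcY y₀ hy₀, rfl⟩⟩
        rw [eq_sub_of_add_eq' hy]
        exact Submodule.sub_mem _ ((ihf_mem_bar (ihfGammaH M H') π hπ).mpr ⟨x', hx', rfl⟩)
          ((ihf_mem_bar (ihfGammaH M H') π hπ).mpr ⟨cor x, hcX x hx, rfl⟩)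
      rw [hinf', Submodule.mem_bot] at h4
      rw [h4, add_zero] at hy
      exact hy
    have hX'fg : X'.FG := IsNoetherian.noetherian X'
    have part1 : X' ≤ X.map cor := by
      refine Submodule.le_of_le_smul_of_le_jacobson_bot hX'fg hjac ?_
      intro x' hx'
      obtain ⟨x, hx, e⟩ := hsurjk x' hx'
      have h1 : ihfRed (ihfGammaH M H') π (x' - cor x) = 0 := by rw [map_sub, e, sub_self]
      have h4 := ihf_summand_ker' (ihfGammaH M H') π hπker hϖ hϖ0 X' Y' hX'.compl _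
        (X'.sub_mem hx' (hcX x hx)) h1
      have : x' = cor x + (x' - cor x) := by abel
      rw [this]
      exact Submodule.add_mem_sup (Submodule.mem_map_of_mem hx) h4
    intro x' hx'
    obtain ⟨x, hx, e⟩ := part1 hx'
    exact ⟨x, hx, e⟩
  · -- the kernel
    set I₀ : Submodule 𝒪 (IhfH 𝒪 𝒪 M H) :=
      Submodule.span 𝒪 {y | ∃ d ∈ H', ∃ z ∈ X, y = (ihfSysD M H d).homPar 𝒪 𝒪 z - z} with hI₀
    set N : Submodule 𝒪 (IhfH 𝒪 𝒪 M H) := X ⊓ LinearMap.ker cor with hN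
    have hI₀X : I₀ ≤ X := by
      refine Submodule.span_le.mpr ?_
      rintro _ ⟨d, hd, z, hz, rfl⟩
      exact X.sub_mem (hX.diam_X d z hz) hz
    have hI₀cor : I₀ ≤ LinearMap.ker cor := by
      refine Submodule.span_le.mpr ?_
      rintro _ ⟨d, hd, z, hz, rfl⟩
      rw [SetLike.mem_coe, LinearMap.mem_ker, map_sub, sub_eq_zero]
      apply Subtype.ext
      show (τ.sys (ihfGammaH_mono hle)).cor 𝒪 ((ihfSysD M H d).hom 𝒪 z.1)
        = (τ.sys (ihfGammaH_mono hle)).cor 𝒪 z.1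
      rw [ihf_cor_D_tf hle τ ihf_tf_of_charZero d z.1, ihfSysD_hom_of_mem M H' d hd]
    have hNfg : N.FG := IsNoetherian.noetherian N
    -- the `k`-level kernel lies in `red I₀ + Ȳ`
    have hkerS : (⨆ d ∈ (Finset.univ.filter (· ∈ H') : Finset (ZMod M)ˣ),
        (ihfBij (ihfEta hℓ₀ hℓ₀M k H)).map (ihfDel k H d - 1))
          ≤ ihfBar (ihfGammaH M H) π hπ I₀ ⊔ ihfBar (ihfGammaH M H) π hπ Y := by
      refine iSup₂_le fun d hd => ?_
      have hdH' : d ∈ H' := (Finset.mem_filter.mp hd).2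
      rintro _ ⟨y, -, rfl⟩
      have hy' : y ∈ ihfBar (ihfGammaH M H) π hπ X ⊔ ihfBar (ihfGammaH M H) π hπ Y := by rw [hsup]; exact Submodule.mem_top
      obtain ⟨u, hu, v, hv, rfl⟩ := Submodule.mem_sup.mp hy'
      obtain ⟨z, hz, rfl⟩ := (ihf_mem_bar (ihfGammaH M H) π hπ).mp hu
      rw [map_add]
      refine Submodule.add_mem_sup ?_ ?_
      · refine (ihf_mem_bar (ihfGammaH M H) π hπ).mpr ⟨(ihfSysD M H d).homPar 𝒪 𝒪 z - z,
          Submodule.subset_span ⟨d, hdH', z, hz, rfl⟩, ?_⟩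
        rw [map_sub, ihfRed_homPar]
        rfl
      · rw [LinearMap.sub_apply, Module.End.one_apply]
        exact Submodule.sub_mem _
          (ihfBar_homPar (ihfGammaH M H) π hπ (ihfSysD M H d) Y (hX.diam_Y d) v hv) hv
    have part2 : N ≤ I₀ := by
      refine Submodule.le_of_le_smul_of_le_jacobson_bot hNfg hjac ?_
      rintro x ⟨hxX, hxker⟩
      have hx0 : cor x = 0 := hxker
      have h1 : ihfRed (ihfGammaH M H) π x ∈ ihfBij (ihfEta hℓ₀ hℓ₀M k H) :=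
        hXW ((ihf_mem_bar (ihfGammaH M H) π hπ).mpr ⟨x, hxX, rfl⟩)
      have h4 : cork (ihfRed (ihfGammaH M H) π x) = 0 := by rw [← hredcor, hx0, map_zero]
      have h5 := hkerS (hker _ h1 h4)
      obtain ⟨u, hu, v, hv, e⟩ := Submodule.mem_sup.mp h5
      obtain ⟨x₀, hx₀, rfl⟩ := (ihf_mem_bar (ihfGammaH M H) π hπ).mp hu
      have hv0 : v = 0 := by
        have h6 : v ∈ ihfBar (ihfGammaH M H) π hπ X ⊓ ihfBar (ihfGammaH M H) π hπ Y := by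
          refine ⟨?_, hv⟩
          have : v = ihfRed (ihfGammaH M H) π (x - x₀) := by
            rw [map_sub, ← e]; abel
          rw [this]
          exact (ihf_mem_bar (ihfGammaH M H) π hπ).mpr ⟨x - x₀, X.sub_mem hxX (hI₀X hx₀), rfl⟩
        rwa [hinf, Submodule.mem_bot] at h6
      rw [hv0, add_zero] at e
      have h7 : ihfRed (ihfGammaH M H) π (x - x₀) = 0 := by rw [map_sub, e, sub_self]
      obtain ⟨x₁, hx₁, e₁⟩ := ihf_summand_ker (ihfGammaH M H) π hπker hϖ hϖ0 X Y hX.compl (x - x₀)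
        (X.sub_mem hxX (hI₀X hx₀)) h7
      have hx₁N : x₁ ∈ N := by
        refine ⟨hx₁, ?_⟩
        show cor x₁ = 0
        apply htf'
        rw [← map_smul, ← e₁, map_sub, hx0, LinearMap.mem_ker.mp (hI₀cor hx₀), sub_zero]
      have : x = x₀ + ϖ • x₁ := by rw [← e₁]; abel
      rw [this]
      exact Submodule.add_mem_sup hx₀ (Submodule.smul_mem_smul hϖmem hx₁N)
    intro x hx h0
    exact part2 ⟨hx, h0⟩

end Fermat.Agent.Ihara
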