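/-
MLT / Fr3 (helper9): fork of `Lib/Ihara/Fr/Main.lean` for `p = 3` (generated by a rename
script from the frozen file: only the declarations depending on `IhfLevel` / `IsUnit 3` are repeated, with
the prefix `ih`/`Ih` replaced by `jh`/`Jh`; the level hypothesis is `JhfLevel`, see `Fr3/Fr/Three.lean`).
-/
import Mathlib
import Fermat.Agent.Lib.Ihara.Fr.GammaH
import Fermat.Agent.Lib.Ihara.Fr.Cor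
import Fermat.Agent.Lib.Ihara.Fr.Defs
import Fermat.Agent.Lib.MLT.Fr3.Fr.Defs
import Fermat.Agent.Lib.Ihara.Fr.Free
import Fermat.Agent.Lib.MLT.Fr3.Fr.Free
import Fermat.Agent.Lib.Ihara.Fr.Control
import Fermat.Agent.Lib.MLT.Fr3.Fr.Control
import Fermat.Agent.Lib.MLT.Fr3.Fr.Cyc
import Fermat.Agent.Lib.MLT.Fr3.Fr.Ind
import Fermat.Agent.Lib.MLT.Fr3.Fr.Ops
import Fermat.Agent.Lib.MLT.Fr3.Fr.Red
import Fermat.Agent.Lib.MLT.Fr3.Fr.ToolB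
import Fermat.Agent.Lib.Ihara.Fr.Main

set_option autoImplicit false
set_option linter.unusedSectionVars false
set_option linter.unusedVariables false

namespace Fermat.Agent.Ihara

open Matrix MatrixGroups CongruenceSubgroup ModularCurve ModularCurve.Period
open Fermat.Agent.DS Fermat.Agent.T1 Fermat.Agent.T1G Fermat.Agent.T2

/-- **FREENESS**: a non-Eisenstein summand of `Hom_par(Γ_H, 𝒪)` has an `𝒪`-basis of the form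
`⟨d⟩ w_i` (`i < n`, `d̄ ∈ Δ = (ℤ/M)ˣ / H`), i.e. it is free of rank `n` over `𝒪[Δ]`. -/
theorem jhf_free {𝒪 : Type*} [CommRing 𝒪] [IsDomain 𝒪] [IsDiscreteValuationRing 𝒪] [CharZero 𝒪]
    {p M : ℕ} [NeZero M] {H : Subgroup (ZMod M)ˣ} (hL : JhfLevel p M H)
    (hp𝒪 : (p : 𝒪) ∈ IsLocalRing.maximalIdeal 𝒪)
    {ℓ₀ : ℕ} (hℓ₀ : ℓ₀.Prime) (hℓ₀M : ¬ ℓ₀ ∣ M)
    (X Y : Submodule 𝒪 (IhfH 𝒪 𝒪 M H)) (hX : IhfSummand M H hℓ₀ hℓ₀M X Y) :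
    ∃ (n : ℕ) (w : Fin n → IhfH 𝒪 𝒪 M H) (b : Module.Basis (Fin n × ((ZMod M)ˣ ⧸ H)) 𝒪 X),
      ∀ (i : Fin n) (d : (ZMod M)ˣ),
        ((b (i, (d : (ZMod M)ˣ ⧸ H)) : X) : IhfH 𝒪 𝒪 M H) = (ihfSysD M H d).homPar 𝒪 𝒪 (w i) :=
  jhf_free_main hL hp𝒪 hℓ₀ hℓ₀M X Y hX

/-- **CONTROL**: for `H ≤ H'` the transfer maps a non-Eisenstein summand `X` at level `Γ_H` ONTO the
corresponding summand `X'` at level `Γ_{H'}`, with kernel `I_{H'/H} X = ∑_{d ∈ H'} (⟨d⟩ - 1) X`. -/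
theorem jhf_control {𝒪 : Type*} [CommRing 𝒪] [IsDomain 𝒪] [IsDiscreteValuationRing 𝒪]
    [CharZero 𝒪] {p M : ℕ} [NeZero M] {H H' : Subgroup (ZMod M)ˣ} (hL : JhfLevel p M H)
    (hle : H ≤ H') (hp𝒪 : (p : 𝒪) ∈ IsLocalRing.maximalIdeal 𝒪)
    {ℓ₀ : ℕ} (hℓ₀ : ℓ₀.Prime) (hℓ₀M : ¬ ℓ₀ ∣ M)
    {I : Type} [Fintype I] (τ : IhfTrans (ihfGammaH M H) (ihfGammaH M H') I)
    (X Y : Submodule 𝒪 (IhfH 𝒪 𝒪 M H)) (hX : IhfSummand M H hℓ₀ hℓ₀M X Y)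
    (X' Y' : Submodule 𝒪 (IhfH 𝒪 𝒪 M H')) (hX' : IhfSummand M H' hℓ₀ hℓ₀M X' Y')
    (hcX : ∀ x ∈ X, (τ.sys (ihfGammaH_mono hle)).corPar 𝒪 𝒪 x ∈ X')
    (hcY : ∀ y ∈ Y, (τ.sys (ihfGammaH_mono hle)).corPar 𝒪 𝒪 y ∈ Y')
    (hrX : ∀ x ∈ X', t2fResPar (ihfGammaH_mono hle) 𝒪 𝒪 x ∈ X)
    (hrY : ∀ y ∈ Y', t2fResPar (ihfGammaH_mono hle) 𝒪 𝒪 y ∈ Y) :
    (∀ x' ∈ X', ∃ x ∈ X, (τ.sys (ihfGammaH_mono hle)).corPar 𝒪 𝒪 x = x') ∧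
    (∀ x ∈ X, (τ.sys (ihfGammaH_mono hle)).corPar 𝒪 𝒪 x = 0 →
      x ∈ Submodule.span 𝒪 {y | ∃ d ∈ H', ∃ z ∈ X, y = (ihfSysD M H d).homPar 𝒪 𝒪 z - z}) :=
  jhf_control_main hL hle hp𝒪 hℓ₀ hℓ₀M τ X Y hX X' Y' hX' hcX hcY

end Fermat.Agent.Ihara
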